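import Mathlib
import Fermat.Prelude.Def_GaloisRep_Adic

set_option autoImplicit false
set_option linter.unusedSectionVars false

noncomputable section

namespace Fermat.Agent.S53_helper35

open scoped TensorProduct

/-- The absolute Galois group of `ℚ`. -/
abbrev GQ : Type := AlgebraicClosure ℚ ≃ₐ[ℚ] AlgebraicClosure ℚ

section Basics

variable {A : Type} [CommRing A]

/-- Coordinates of an element of `I • ⊤` lie in `I`. -/
theorem repr_mem_of_mem_smul_top {ι : Type*} {V : Type*} [AddCommGroup V] [Module A V]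
    (b : Module.Basis ι A V) (I : Ideal A) {x : V}
    (hx : x ∈ I • (⊤ : Submodule A V)) (i : ι) : b.repr x i ∈ I := by
  refine Submodule.smul_induction_on hx ?_ ?_
  · intro a ha v _
    rw [map_smul, Finsupp.smul_apply, smul_eq_mul]
    exact I.mul_mem_right _ ha
  · intro x y hx hy
    rw [map_add, Finsupp.add_apply]
    exact I.add_mem hx hy

/-- An element all of whose coordinates lie in `I` belongs to `I • ⊤`. -/
theorem mem_smul_top_of_repr_mem {ι : Type*} [Fintype ι] {V : Type*} [AddCommGroup V] [Module A V]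
    (b : Module.Basis ι A V) (I : Ideal A) {x : V}
    (hx : ∀ i, b.repr x i ∈ I) : x ∈ I • (⊤ : Submodule A V) := by
  rw [← b.sum_repr x]
  exact Submodule.sum_mem _ fun i _ => Submodule.smul_mem_smul (hx i) Submodule.mem_top

theorem mem_smul_top_iff_repr {ι : Type*} [Fintype ι] {V : Type*} [AddCommGroup V] [Module A V]
    (b : Module.Basis ι A V) (I : Ideal A) (x : V) :
    x ∈ I • (⊤ : Submodule A V) ↔ ∀ i, b.repr x i ∈ I :=
  ⟨fun h i => repr_mem_of_mem_smul_top b I h i, mem_smul_top_of_repr_mem b I⟩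

theorem mem_smul_top_pi_iff {ι : Type*} [Fintype ι] [DecidableEq ι] (I : Ideal A) (x : ι → A) :
    x ∈ I • (⊤ : Submodule A (ι → A)) ↔ ∀ i, x i ∈ I := by
  rw [mem_smul_top_iff_repr (Pi.basisFun A ι)]
  simp

/-- The linear automorphism of `Fin 2 → A` given by an invertible matrix. -/
def glLinearEquiv (P : GL (Fin 2) A) : (Fin 2 → A) ≃ₗ[A] (Fin 2 → A) where
  toFun v := (P : Matrix (Fin 2) (Fin 2) A).mulVec v
  map_add' := Matrix.mulVec_add _
  map_smul' c v := Matrix.mulVec_smul _ c v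
  invFun v := ((P⁻¹ : GL (Fin 2) A) : Matrix (Fin 2) (Fin 2) A).mulVec v
  left_inv v := by
    show ((P⁻¹ : GL (Fin 2) A) : Matrix (Fin 2) (Fin 2) A).mulVec
      ((P : Matrix (Fin 2) (Fin 2) A).mulVec v) = v
    rw [Matrix.mulVec_mulVec, ← Units.val_mul, inv_mul_cancel, Units.val_one, Matrix.one_mulVec]
  right_inv v := by
    show (P : Matrix (Fin 2) (Fin 2) A).mulVec
      (((P⁻¹ : GL (Fin 2) A) : Matrix (Fin 2) (Fin 2) A).mulVec v) = v
    rw [Matrix.mulVec_mulVec, ← Units.val_mul, mul_inv_cancel, Units.val_one, Matrix.one_mulVec]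

@[simp] theorem glLinearEquiv_apply (P : GL (Fin 2) A) (v : Fin 2 → A) :
    glLinearEquiv P v = (P : Matrix (Fin 2) (Fin 2) A).mulVec v := rfl

end Basics

section OfMat

variable {A : Type} [CommRing A] [IsLocalRing A]

/-- Adic continuity of a matrix-valued representation of `GQ`: for every `n` the matrices are
congruent to `1` modulo `𝔪 ^ n` on an open subgroup. -/
def MatCont (r : GQ →* Matrix (Fin 2) (Fin 2) A) : Prop :=
  ∀ n : ℕ, ∃ L : IntermediateField ℚ (AlgebraicClosure ℚ), FiniteDimensional ℚ L ∧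
    ∀ σ : GQ, (∀ x ∈ L, σ x = x) →
      ∀ i j, (r σ - 1) i j ∈ IsLocalRing.maximalIdeal A ^ n

/-- The monoid homomorphism `GQ →* End (Fin 2 → A)` attached to a matrix representation. -/
def matEnd (r : GQ →* Matrix (Fin 2) (Fin 2) A) :
    GQ →* Module.End A (Fin 2 → A) :=
  ((Matrix.toLinAlgEquiv' : Matrix (Fin 2) (Fin 2) A ≃ₐ[A] Module.End A (Fin 2 → A)) :
    Matrix (Fin 2) (Fin 2) A →* Module.End A (Fin 2 → A)).comp r

@[simp] theorem matEnd_apply (r : GQ →* Matrix (Fin 2) (Fin 2) A) (σ : GQ) (v : Fin 2 → A) :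
    matEnd r σ v = (r σ).mulVec v := rfl

theorem isAdicContinuous_matEnd {r : GQ →* Matrix (Fin 2) (Fin 2) A} (hr : MatCont r) :
    GaloisActionIsAdicContinuous A (matEnd r) := by
  intro n
  obtain ⟨L, hL, h⟩ := hr n
  refine ⟨L, hL, fun σ hσ v => ?_⟩
  rw [mem_smul_top_pi_iff]
  intro i
  have : matEnd r σ v - v = (r σ - 1).mulVec v := by
    rw [matEnd_apply, Matrix.sub_mulVec, Matrix.one_mulVec]
  rw [this, Matrix.mulVec, dotProduct]
  exact Ideal.sum_mem _ fun j _ => Ideal.mul_mem_right _ _ (h σ hσ i j)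

/-- The `GaloisRepAdic` attached to a continuous matrix representation. -/
def ofMat (r : GQ →* Matrix (Fin 2) (Fin 2) A) (hr : MatCont r) : GaloisRepAdic A where
  V := Fin 2 → A
  finrank_eq := by simp
  ρ := matEnd r
  isAdicContinuous := isAdicContinuous_matEnd hr

/-- The matrix representation of a `GaloisRepAdic` in a basis. -/
def toMat (ρ : GaloisRepAdic A) (b : Module.Basis (Fin 2) A ρ.V) :
    GQ →* Matrix (Fin 2) (Fin 2) A :=
  ((LinearMap.toMatrixAlgEquiv b : Module.End A ρ.V ≃ₐ[A] Matrix (Fin 2) (Fin 2) A) :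
    Module.End A ρ.V →* Matrix (Fin 2) (Fin 2) A).comp ρ.ρ

theorem toMat_apply (ρ : GaloisRepAdic A) (b : Module.Basis (Fin 2) A ρ.V) (σ : GQ) :
    toMat ρ b σ = LinearMap.toMatrix b b (ρ.ρ σ) := rfl

theorem matCont_toMat (ρ : GaloisRepAdic A) (b : Module.Basis (Fin 2) A ρ.V) :
    MatCont (toMat ρ b) := by
  intro n
  obtain ⟨L, hL, h⟩ := ρ.isAdicContinuous n
  refine ⟨L, hL, fun σ hσ i j => ?_⟩
  have h1 : (toMat ρ b σ - 1) i j = b.repr (ρ.ρ σ (b j) - b j) i := by
    rw [toMat_apply, Matrix.sub_apply, LinearMap.toMatrix_apply, map_sub, Finsupp.sub_apply,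
      Matrix.one_apply, Module.Basis.repr_self, Finsupp.single_apply]
    congr 1
    by_cases hij : i = j
    · simp [hij]
    · simp [hij, Ne.symm hij]
  rw [h1]
  exact repr_mem_of_mem_smul_top b _ (h σ hσ (b j)) i

/-- Every `GaloisRepAdic` is equivalent to the one given by its matrices in any basis. -/
def equivOfMatToMat (ρ : GaloisRepAdic A) (b : Module.Basis (Fin 2) A ρ.V) :
    GaloisRepAdic.Equiv ρ (ofMat (toMat ρ b) (matCont_toMat ρ b)) where
  toLinearEquiv := b.equivFun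
  map_apply σ x := by
    show b.equivFun (ρ.ρ σ x) = (toMat ρ b σ).mulVec (b.equivFun x)
    rw [toMat_apply]
    exact (LinearMap.toMatrix_mulVec_repr b b (ρ.ρ σ) x).symm

/-- A basis of the underlying module of a `GaloisRepAdic`. -/
def stdBasis (ρ : GaloisRepAdic A) : Module.Basis (Fin 2) A ρ.V :=
  Module.finBasisOfFinrankEq A ρ.V ρ.finrank_eq

theorem exists_ofMat_isEquiv (ρ : GaloisRepAdic A) :
    ∃ (r : GQ →* Matrix (Fin 2) (Fin 2) A) (hr : MatCont r), ρ.IsEquiv (ofMat r hr) :=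
  ⟨_, _, ⟨equivOfMatToMat ρ (stdBasis ρ)⟩⟩

/-- Conjugate matrix representations give equivalent `GaloisRepAdic`s. -/
def equivOfConj {r r' : GQ →* Matrix (Fin 2) (Fin 2) A} (hr : MatCont r)
    (hr' : MatCont r') (P : GL (Fin 2) A)
    (h : ∀ σ, (P : Matrix (Fin 2) (Fin 2) A) * r σ = r' σ * (P : Matrix (Fin 2) (Fin 2) A)) :
    GaloisRepAdic.Equiv (ofMat r hr) (ofMat r' hr') where
  toLinearEquiv := glLinearEquiv P
  map_apply σ x := by
    have key : ∀ y : Fin 2 → A, (P : Matrix (Fin 2) (Fin 2) A).mulVec ((r σ).mulVec y) =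
        (r' σ).mulVec ((P : Matrix (Fin 2) (Fin 2) A).mulVec y) := fun y => by
      rw [Matrix.mulVec_mulVec, Matrix.mulVec_mulVec, h σ]
    exact key x

/-- An equivalence between matrix representations, as a plain linear automorphism. -/
def plainEquiv {r r' : GQ →* Matrix (Fin 2) (Fin 2) A} {hr : MatCont r}
    {hr' : MatCont r'} (e : GaloisRepAdic.Equiv (ofMat r hr) (ofMat r' hr')) :
    (Fin 2 → A) ≃ₗ[A] (Fin 2 → A) := e.toLinearEquiv

theorem plainEquiv_mulVec {r r' : GQ →* Matrix (Fin 2) (Fin 2) A} {hr : MatCont r}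
    {hr' : MatCont r'} (e : GaloisRepAdic.Equiv (ofMat r hr) (ofMat r' hr')) (σ : GQ)
    (x : Fin 2 → A) : plainEquiv e ((r σ).mulVec x) = (r' σ).mulVec (plainEquiv e x) :=
  e.map_apply σ x

/-- The invertible matrix underlying an equivalence between matrix representations. -/
def glOfEquiv {r r' : GQ →* Matrix (Fin 2) (Fin 2) A} {hr : MatCont r}
    {hr' : MatCont r'} (e : GaloisRepAdic.Equiv (ofMat r hr) (ofMat r' hr')) : GL (Fin 2) A where
  val := LinearMap.toMatrix' (plainEquiv e : (Fin 2 → A) →ₗ[A] (Fin 2 → A))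
  inv := LinearMap.toMatrix' ((plainEquiv e).symm : (Fin 2 → A) →ₗ[A] (Fin 2 → A))
  val_inv := by
    rw [← LinearMap.toMatrix'_comp, LinearEquiv.comp_coe, LinearEquiv.symm_trans_self,
      LinearEquiv.refl_toLinearMap, LinearMap.toMatrix'_id]
  inv_val := by
    rw [← LinearMap.toMatrix'_comp, LinearEquiv.comp_coe, LinearEquiv.self_trans_symm,
      LinearEquiv.refl_toLinearMap, LinearMap.toMatrix'_id]

theorem glOfEquiv_mul {r r' : GQ →* Matrix (Fin 2) (Fin 2) A} {hr : MatCont r}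
    {hr' : MatCont r'} (e : GaloisRepAdic.Equiv (ofMat r hr) (ofMat r' hr')) (σ : GQ) :
    (glOfEquiv e : Matrix (Fin 2) (Fin 2) A) * r σ =
      r' σ * (glOfEquiv e : Matrix (Fin 2) (Fin 2) A) := by
  have h1 : r σ = LinearMap.toMatrix' (Matrix.toLin' (r σ)) := (LinearMap.toMatrix'_toLin' _).symm
  have h2 : r' σ = LinearMap.toMatrix' (Matrix.toLin' (r' σ)) :=
    (LinearMap.toMatrix'_toLin' _).symm
  show LinearMap.toMatrix' (plainEquiv e : (Fin 2 → A) →ₗ[A] (Fin 2 → A)) * r σ =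
    r' σ * LinearMap.toMatrix' (plainEquiv e : (Fin 2 → A) →ₗ[A] (Fin 2 → A))
  conv_lhs => rw [h1]
  conv_rhs => rw [h2]
  rw [← LinearMap.toMatrix'_comp, ← LinearMap.toMatrix'_comp]
  congr 1
  refine LinearMap.ext fun x => ?_
  rw [LinearMap.comp_apply, LinearMap.comp_apply, Matrix.toLin'_apply, Matrix.toLin'_apply]
  exact plainEquiv_mulVec e σ x

theorem ofMat_isEquiv_iff {r r' : GQ →* Matrix (Fin 2) (Fin 2) A} (hr : MatCont r)
    (hr' : MatCont r') :
    (ofMat r hr).IsEquiv (ofMat r' hr') ↔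
      ∃ P : GL (Fin 2) A,
        ∀ σ, (P : Matrix (Fin 2) (Fin 2) A) * r σ = r' σ * (P : Matrix (Fin 2) (Fin 2) A) :=
  ⟨fun ⟨e⟩ => ⟨glOfEquiv e, glOfEquiv_mul e⟩, fun ⟨P, h⟩ => ⟨equivOfConj hr hr' P h⟩⟩

theorem isEquiv_ofMat_of_eq {r r' : GQ →* Matrix (Fin 2) (Fin 2) A} (hr : MatCont r)
    (hr' : MatCont r') (h : r = r') : (ofMat r hr).IsEquiv (ofMat r' hr') := by
  subst h
  exact ⟨GaloisRepAdic.Equiv.refl _⟩

end OfMat

section BaseChange

variable {A : Type} [CommRing A] [IsLocalRing A] {B : Type} [CommRing B] [IsLocalRing B]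

/-- Push a matrix representation forward along a ring homomorphism. -/
def mapMat (φ : A →+* B) (r : GQ →* Matrix (Fin 2) (Fin 2) A) :
    GQ →* Matrix (Fin 2) (Fin 2) B :=
  (RingHom.mapMatrix φ : Matrix (Fin 2) (Fin 2) A →+* Matrix (Fin 2) (Fin 2) B).toMonoidHom.comp r

omit [IsLocalRing A] [IsLocalRing B] in
@[simp] theorem mapMat_apply (φ : A →+* B) (r : GQ →* Matrix (Fin 2) (Fin 2) A) (σ : GQ) :
    mapMat φ r σ = (r σ).map φ := rfl

theorem map_maximalIdeal_pow_le (φ : A →+* B) (hφ : IsLocalHom φ) (n : ℕ) :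
    (IsLocalRing.maximalIdeal A ^ n).map φ ≤ IsLocalRing.maximalIdeal B ^ n := by
  rw [Ideal.map_pow]
  exact Ideal.pow_right_mono (Ideal.map_le_iff_le_comap.mpr fun a ha =>
    Ideal.mem_comap.mpr (haveI := hφ; map_nonunit φ a ha)) n

theorem matCont_mapMat (φ : A →+* B) (hφ : IsLocalHom φ) {r : GQ →* Matrix (Fin 2) (Fin 2) A}
    (hr : MatCont r) : MatCont (mapMat φ r) := by
  intro n
  obtain ⟨L, hL, h⟩ := hr n
  refine ⟨L, hL, fun σ hσ i j => ?_⟩
  have h1 : (mapMat φ r σ - 1) i j = φ ((r σ - 1) i j) := by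
    rw [mapMat_apply, Matrix.sub_apply, Matrix.sub_apply, map_sub, Matrix.map_apply]
    congr 1
    by_cases hij : i = j
    · rw [hij, Matrix.one_apply_eq, Matrix.one_apply_eq, map_one]
    · rw [Matrix.one_apply_ne hij, Matrix.one_apply_ne hij, map_zero]
  rw [h1]
  exact map_maximalIdeal_pow_le φ hφ n (Ideal.mem_map_of_mem φ (h σ hσ i j))

/-- The base-changed basis, typed as a basis of the base-changed representation. -/
def bcBasis (φ : A →+* B) (hφ : IsLocalHom φ) (ρ : GaloisRepAdic A)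
    (b : Module.Basis (Fin 2) A ρ.V) : Module.Basis (Fin 2) B (ρ.baseChangeAlong φ hφ).V :=
  letI : Algebra A B := φ.toAlgebra
  (Algebra.TensorProduct.basis B b : Module.Basis (Fin 2) B (B ⊗[A] ρ.V))

theorem toMat_baseChangeAlong (φ : A →+* B) (hφ : IsLocalHom φ) (ρ : GaloisRepAdic A)
    (b : Module.Basis (Fin 2) A ρ.V) :
    toMat (ρ.baseChangeAlong φ hφ) (bcBasis φ hφ ρ b) = mapMat φ (toMat ρ b) := by
  let _ : Algebra A B := φ.toAlgebra
  refine MonoidHom.ext fun σ => ?_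
  exact LinearMap.toMatrix_baseChange B (ρ.ρ σ) b b

/-- The base change of a `GaloisRepAdic` is given by the image matrices. -/
theorem baseChangeAlong_isEquiv_ofMat (φ : A →+* B) (hφ : IsLocalHom φ) (ρ : GaloisRepAdic A)
    (b : Module.Basis (Fin 2) A ρ.V) :
    (ρ.baseChangeAlong φ hφ).IsEquiv
      (ofMat (mapMat φ (toMat ρ b)) (matCont_mapMat φ hφ (matCont_toMat ρ b))) := by
  have e := equivOfMatToMat (ρ.baseChangeAlong φ hφ) (bcBasis φ hφ ρ b)
  obtain ⟨e'⟩ := isEquiv_ofMat_of_eq (matCont_toMat _ _)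
    (matCont_mapMat φ hφ (matCont_toMat ρ b)) (toMat_baseChangeAlong φ hφ ρ b)
  exact ⟨e.trans e'⟩

end BaseChange

section Residual

variable {k : Type} [Field k]

/-- A matrix representation over a field factors through a finite level. -/
def ResCont (r : GQ →* Matrix (Fin 2) (Fin 2) k) : Prop :=
  ∃ L : IntermediateField ℚ (AlgebraicClosure ℚ), FiniteDimensional ℚ L ∧
    ∀ σ : GQ, (∀ x ∈ L, σ x = x) → r σ = 1

/-- The monoid homomorphism `GQ →* End (Fin 2 → k)` attached to a matrix representation. -/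
def matEndRes (r : GQ →* Matrix (Fin 2) (Fin 2) k) :
    GQ →* Module.End k (Fin 2 → k) :=
  ((Matrix.toLinAlgEquiv' : Matrix (Fin 2) (Fin 2) k ≃ₐ[k] Module.End k (Fin 2 → k)) :
    Matrix (Fin 2) (Fin 2) k →* Module.End k (Fin 2 → k)).comp r

@[simp] theorem matEndRes_apply (r : GQ →* Matrix (Fin 2) (Fin 2) k) (σ : GQ) (v : Fin 2 → k) :
    matEndRes r σ v = (r σ).mulVec v := rfl

/-- The `ResidualGaloisRep` attached to a matrix representation. -/
def ofMatRes (r : GQ →* Matrix (Fin 2) (Fin 2) k) (hr : ResCont r) :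
    ResidualGaloisRep k where
  V := Fin 2 → k
  finrank_eq := by simp
  ρ := matEndRes r
  factorsThroughFiniteLevel := by
    obtain ⟨L, hL, h⟩ := hr
    refine ⟨L, hL, fun σ hσ => ?_⟩
    refine LinearMap.ext fun v => ?_
    rw [matEndRes_apply, h σ hσ, Matrix.one_mulVec, Module.End.one_apply]

/-- The matrix representation of a `ResidualGaloisRep` in a basis. -/
def toMatRes (ρ : ResidualGaloisRep k) (b : Module.Basis (Fin 2) k ρ.V) :
    GQ →* Matrix (Fin 2) (Fin 2) k :=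
  ((LinearMap.toMatrixAlgEquiv b : Module.End k ρ.V ≃ₐ[k] Matrix (Fin 2) (Fin 2) k) :
    Module.End k ρ.V →* Matrix (Fin 2) (Fin 2) k).comp ρ.ρ

theorem toMatRes_apply (ρ : ResidualGaloisRep k) (b : Module.Basis (Fin 2) k ρ.V) (σ : GQ) :
    toMatRes ρ b σ = LinearMap.toMatrix b b (ρ.ρ σ) := rfl

theorem resCont_toMatRes (ρ : ResidualGaloisRep k) (b : Module.Basis (Fin 2) k ρ.V) :
    ResCont (toMatRes ρ b) := by
  obtain ⟨L, hL, h⟩ := ρ.factorsThroughFiniteLevel
  refine ⟨L, hL, fun σ hσ => ?_⟩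
  rw [toMatRes_apply, h σ hσ]
  exact LinearMap.toMatrix_one b

/-- Every `ResidualGaloisRep` is equivalent to the one given by its matrices in any basis. -/
def equivOfMatResToMatRes (ρ : ResidualGaloisRep k)
    (b : Module.Basis (Fin 2) k ρ.V) :
    ResidualGaloisRep.Equiv ρ (ofMatRes (toMatRes ρ b) (resCont_toMatRes ρ b)) where
  toLinearEquiv := b.equivFun
  map_apply σ x := by
    show b.equivFun (ρ.ρ σ x) = (toMatRes ρ b σ).mulVec (b.equivFun x)
    rw [toMatRes_apply]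
    exact (LinearMap.toMatrix_mulVec_repr b b (ρ.ρ σ) x).symm

/-- A basis of the underlying space of a `ResidualGaloisRep`. -/
def stdBasisRes (ρ : ResidualGaloisRep k) : Module.Basis (Fin 2) k ρ.V :=
  Module.finBasisOfFinrankEq k ρ.V ρ.finrank_eq

/-- An equivalence between matrix residual representations, as a plain linear automorphism. -/
def plainEquivRes {r r' : GQ →* Matrix (Fin 2) (Fin 2) k} {hr : ResCont r}
    {hr' : ResCont r'} (e : ResidualGaloisRep.Equiv (ofMatRes r hr) (ofMatRes r' hr')) :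
    (Fin 2 → k) ≃ₗ[k] (Fin 2 → k) := e.toLinearEquiv

theorem plainEquivRes_mulVec {r r' : GQ →* Matrix (Fin 2) (Fin 2) k} {hr : ResCont r}
    {hr' : ResCont r'} (e : ResidualGaloisRep.Equiv (ofMatRes r hr) (ofMatRes r' hr')) (σ : GQ)
    (x : Fin 2 → k) : plainEquivRes e ((r σ).mulVec x) = (r' σ).mulVec (plainEquivRes e x) :=
  e.map_apply σ x

/-- Conjugate matrix representations give equivalent `ResidualGaloisRep`s. -/
def equivResOfConj {r r' : GQ →* Matrix (Fin 2) (Fin 2) k} (hr : ResCont r)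
    (hr' : ResCont r') (P : GL (Fin 2) k)
    (h : ∀ σ, (P : Matrix (Fin 2) (Fin 2) k) * r σ = r' σ * (P : Matrix (Fin 2) (Fin 2) k)) :
    ResidualGaloisRep.Equiv (ofMatRes r hr) (ofMatRes r' hr') where
  toLinearEquiv := glLinearEquiv P
  map_apply σ x := by
    have key : ∀ y : Fin 2 → k, (P : Matrix (Fin 2) (Fin 2) k).mulVec ((r σ).mulVec y) =
        (r' σ).mulVec ((P : Matrix (Fin 2) (Fin 2) k).mulVec y) := fun y => by
      rw [Matrix.mulVec_mulVec, Matrix.mulVec_mulVec, h σ]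
    exact key x

/-- The invertible matrix underlying an equivalence between matrix residual representations. -/
def glOfEquivRes {r r' : GQ →* Matrix (Fin 2) (Fin 2) k} {hr : ResCont r}
    {hr' : ResCont r'} (e : ResidualGaloisRep.Equiv (ofMatRes r hr) (ofMatRes r' hr')) :
    GL (Fin 2) k where
  val := LinearMap.toMatrix' (plainEquivRes e : (Fin 2 → k) →ₗ[k] (Fin 2 → k))
  inv := LinearMap.toMatrix' ((plainEquivRes e).symm : (Fin 2 → k) →ₗ[k] (Fin 2 → k))
  val_inv := by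
    rw [← LinearMap.toMatrix'_comp, LinearEquiv.comp_coe, LinearEquiv.symm_trans_self,
      LinearEquiv.refl_toLinearMap, LinearMap.toMatrix'_id]
  inv_val := by
    rw [← LinearMap.toMatrix'_comp, LinearEquiv.comp_coe, LinearEquiv.self_trans_symm,
      LinearEquiv.refl_toLinearMap, LinearMap.toMatrix'_id]

theorem glOfEquivRes_mul {r r' : GQ →* Matrix (Fin 2) (Fin 2) k} {hr : ResCont r}
    {hr' : ResCont r'} (e : ResidualGaloisRep.Equiv (ofMatRes r hr) (ofMatRes r' hr')) (σ : GQ) :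
    (glOfEquivRes e : Matrix (Fin 2) (Fin 2) k) * r σ =
      r' σ * (glOfEquivRes e : Matrix (Fin 2) (Fin 2) k) := by
  have h1 : r σ = LinearMap.toMatrix' (Matrix.toLin' (r σ)) := (LinearMap.toMatrix'_toLin' _).symm
  have h2 : r' σ = LinearMap.toMatrix' (Matrix.toLin' (r' σ)) :=
    (LinearMap.toMatrix'_toLin' _).symm
  show LinearMap.toMatrix' (plainEquivRes e : (Fin 2 → k) →ₗ[k] (Fin 2 → k)) * r σ =
    r' σ * LinearMap.toMatrix' (plainEquivRes e : (Fin 2 → k) →ₗ[k] (Fin 2 → k))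
  conv_lhs => rw [h1]
  conv_rhs => rw [h2]
  rw [← LinearMap.toMatrix'_comp, ← LinearMap.toMatrix'_comp]
  congr 1
  refine LinearMap.ext fun x => ?_
  rw [LinearMap.comp_apply, LinearMap.comp_apply, Matrix.toLin'_apply, Matrix.toLin'_apply]
  exact plainEquivRes_mulVec e σ x

theorem ofMatRes_isEquiv_iff {r r' : GQ →* Matrix (Fin 2) (Fin 2) k} (hr : ResCont r)
    (hr' : ResCont r') :
    (ofMatRes r hr).IsEquiv (ofMatRes r' hr') ↔
      ∃ P : GL (Fin 2) k,
        ∀ σ, (P : Matrix (Fin 2) (Fin 2) k) * r σ = r' σ * (P : Matrix (Fin 2) (Fin 2) k) :=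
  ⟨fun ⟨e⟩ => ⟨glOfEquivRes e, glOfEquivRes_mul e⟩, fun ⟨P, h⟩ => ⟨equivResOfConj hr hr' P h⟩⟩

theorem isEquiv_ofMatRes_of_eq {r r' : GQ →* Matrix (Fin 2) (Fin 2) k} (hr : ResCont r)
    (hr' : ResCont r') (h : r = r') : (ofMatRes r hr).IsEquiv (ofMatRes r' hr') := by
  subst h
  exact ⟨ResidualGaloisRep.Equiv.refl _⟩

theorem resCont_mapMat {k' : Type} [Field k'] (ψ : k →+* k')
    {r : GQ →* Matrix (Fin 2) (Fin 2) k} (hr : ResCont r) : ResCont (mapMat ψ r) := by
  obtain ⟨L, hL, h⟩ := hr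
  refine ⟨L, hL, fun σ hσ => ?_⟩
  rw [mapMat_apply, h σ hσ]
  exact (RingHom.mapMatrix ψ).map_one

/-- The base-changed basis, typed as a basis of the base-changed residual representation. -/
def bcBasisRes {k' : Type} [Field k'] (ψ : k →+* k') (ρ : ResidualGaloisRep k)
    (b : Module.Basis (Fin 2) k ρ.V) : Module.Basis (Fin 2) k' (ρ.baseChangeAlong ψ).V :=
  letI : Algebra k k' := ψ.toAlgebra
  (Algebra.TensorProduct.basis k' b : Module.Basis (Fin 2) k' (k' ⊗[k] ρ.V))

theorem toMatRes_baseChangeAlong {k' : Type} [Field k'] (ψ : k →+* k') (ρ : ResidualGaloisRep k)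
    (b : Module.Basis (Fin 2) k ρ.V) :
    toMatRes (ρ.baseChangeAlong ψ) (bcBasisRes ψ ρ b) = mapMat ψ (toMatRes ρ b) := by
  let _ : Algebra k k' := ψ.toAlgebra
  refine MonoidHom.ext fun σ => ?_
  exact LinearMap.toMatrix_baseChange k' (ρ.ρ σ) b b

/-- The base change of a `ResidualGaloisRep` is given by the image matrices. -/
theorem baseChangeAlong_isEquiv_ofMatRes {k' : Type} [Field k'] (ψ : k →+* k')
    (ρ : ResidualGaloisRep k) (b : Module.Basis (Fin 2) k ρ.V) :
    (ρ.baseChangeAlong ψ).IsEquiv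
      (ofMatRes (mapMat ψ (toMatRes ρ b)) (resCont_mapMat ψ (resCont_toMatRes ρ b))) := by
  have e := equivOfMatResToMatRes (ρ.baseChangeAlong ψ) (bcBasisRes ψ ρ b)
  obtain ⟨e'⟩ := isEquiv_ofMatRes_of_eq (resCont_toMatRes _ _)
    (resCont_mapMat ψ (resCont_toMatRes ρ b)) (toMatRes_baseChangeAlong ψ ρ b)
  exact ⟨e.trans e'⟩

end Residual

section ResidualOfAdic

variable {A : Type} [CommRing A] [IsLocalRing A]

theorem resCont_mapMat_residue {r : GQ →* Matrix (Fin 2) (Fin 2) A} (hr : MatCont r) :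
    ResCont (mapMat (IsLocalRing.residue A) r) := by
  obtain ⟨L, hL, h⟩ := hr 1
  refine ⟨L, hL, fun σ hσ => ?_⟩
  ext i j
  have h1 := h σ hσ i j
  rw [pow_one, ← IsLocalRing.residue_eq_zero_iff, Matrix.sub_apply, map_sub, sub_eq_zero] at h1
  rw [mapMat_apply, Matrix.map_apply, h1]
  by_cases hij : i = j
  · rw [hij, Matrix.one_apply_eq, Matrix.one_apply_eq, map_one]
  · rw [Matrix.one_apply_ne hij, Matrix.one_apply_ne hij, map_zero]

/-- The reduced basis, typed as a basis of the residual representation. -/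
def resBasis (ρ : GaloisRepAdic A) (b : Module.Basis (Fin 2) A ρ.V) :
    Module.Basis (Fin 2) (IsLocalRing.ResidueField A) ρ.residual.V :=
  (Algebra.TensorProduct.basis (IsLocalRing.ResidueField A) b :
    Module.Basis (Fin 2) (IsLocalRing.ResidueField A) (IsLocalRing.ResidueField A ⊗[A] ρ.V))

theorem toMatRes_residual (ρ : GaloisRepAdic A) (b : Module.Basis (Fin 2) A ρ.V) :
    toMatRes ρ.residual (resBasis ρ b) = mapMat (IsLocalRing.residue A) (toMat ρ b) := by
  refine MonoidHom.ext fun σ => ?_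
  exact LinearMap.toMatrix_baseChange (IsLocalRing.ResidueField A) (ρ.ρ σ) b b

/-- The residual representation is given by the reduced matrices. -/
theorem residual_isEquiv_ofMatRes (ρ : GaloisRepAdic A) (b : Module.Basis (Fin 2) A ρ.V) :
    ρ.residual.IsEquiv (ofMatRes (mapMat (IsLocalRing.residue A) (toMat ρ b))
      (resCont_mapMat_residue (matCont_toMat ρ b))) := by
  have e := equivOfMatResToMatRes ρ.residual (resBasis ρ b)
  obtain ⟨e'⟩ := isEquiv_ofMatRes_of_eq (resCont_toMatRes _ _)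
    (resCont_mapMat_residue (matCont_toMat ρ b)) (toMatRes_residual ρ b)
  exact ⟨e.trans e'⟩

/-- The standard basis of `ofMat r hr`. -/
def ofMatBasis (r : GQ →* Matrix (Fin 2) (Fin 2) A) (hr : MatCont r) :
    Module.Basis (Fin 2) A (ofMat r hr).V :=
  (Pi.basisFun A (Fin 2) : Module.Basis (Fin 2) A (Fin 2 → A))

theorem toMat_ofMat (r : GQ →* Matrix (Fin 2) (Fin 2) A) (hr : MatCont r) :
    toMat (ofMat r hr) (ofMatBasis r hr) = r := by
  refine MonoidHom.ext fun σ => ?_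
  exact LinearMap.toMatrix'_toLin' (r σ)

theorem residual_ofMat_isEquiv (r : GQ →* Matrix (Fin 2) (Fin 2) A) (hr : MatCont r) :
    (ofMat r hr).residual.IsEquiv (ofMatRes (mapMat (IsLocalRing.residue A) r)
      (resCont_mapMat_residue hr)) := by
  obtain ⟨e⟩ := residual_isEquiv_ofMatRes (ofMat r hr) (ofMatBasis r hr)
  obtain ⟨e'⟩ := isEquiv_ofMatRes_of_eq
    (resCont_mapMat_residue (matCont_toMat (ofMat r hr) (ofMatBasis r hr)))
    (resCont_mapMat_residue hr) (congrArg (mapMat (IsLocalRing.residue A)) (toMat_ofMat r hr))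
  exact ⟨e.trans e'⟩

end ResidualOfAdic

section Conj

variable {A : Type} [CommRing A]

theorem mul_entries_mem (I : Ideal A) {M : Matrix (Fin 2) (Fin 2) A} (hM : ∀ i j, M i j ∈ I)
    (P : Matrix (Fin 2) (Fin 2) A) : ∀ i j, (P * M) i j ∈ I := fun i j => by
  rw [Matrix.mul_apply]
  exact Ideal.sum_mem _ fun l _ => I.mul_mem_left _ (hM l j)

theorem entries_mul_mem (I : Ideal A) {M : Matrix (Fin 2) (Fin 2) A} (hM : ∀ i j, M i j ∈ I)
    (P : Matrix (Fin 2) (Fin 2) A) : ∀ i j, (M * P) i j ∈ I := fun i j => by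
  rw [Matrix.mul_apply]
  exact Ideal.sum_mem _ fun l _ => I.mul_mem_right _ (hM i l)

/-- Conjugate a matrix representation by an invertible matrix. -/
def conjMat (P : GL (Fin 2) A) (r : GQ →* Matrix (Fin 2) (Fin 2) A) :
    GQ →* Matrix (Fin 2) (Fin 2) A where
  toFun σ := (P : Matrix (Fin 2) (Fin 2) A) * r σ * ((P⁻¹ : GL (Fin 2) A) : Matrix (Fin 2) (Fin 2) A)
  map_one' := by
    rw [map_one, mul_one, ← Units.val_mul, mul_inv_cancel, Units.val_one]
  map_mul' σ τ := by
    have h : ((P⁻¹ : GL (Fin 2) A) : Matrix (Fin 2) (Fin 2) A) * (P : Matrix (Fin 2) (Fin 2) A) = 1 := by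
      rw [← Units.val_mul, inv_mul_cancel, Units.val_one]
    calc (P : Matrix (Fin 2) (Fin 2) A) * r (σ * τ) * ((P⁻¹ : GL (Fin 2) A) : Matrix (Fin 2) (Fin 2) A)
        = (P : Matrix (Fin 2) (Fin 2) A) * r σ * 1 * r τ *
            ((P⁻¹ : GL (Fin 2) A) : Matrix (Fin 2) (Fin 2) A) := by
          rw [map_mul, mul_one]
          simp only [mul_assoc]
      _ = _ := by
          rw [← h]
          simp only [mul_assoc]

@[simp] theorem conjMat_apply (P : GL (Fin 2) A) (r : GQ →* Matrix (Fin 2) (Fin 2) A) (σ : GQ) :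
    conjMat P r σ = (P : Matrix (Fin 2) (Fin 2) A) * r σ *
      ((P⁻¹ : GL (Fin 2) A) : Matrix (Fin 2) (Fin 2) A) := rfl

theorem conjMat_mul_self (P : GL (Fin 2) A) (r : GQ →* Matrix (Fin 2) (Fin 2) A) (σ : GQ) :
    (P : Matrix (Fin 2) (Fin 2) A) * r σ = conjMat P r σ * (P : Matrix (Fin 2) (Fin 2) A) := by
  rw [conjMat_apply, mul_assoc, ← Units.val_mul, inv_mul_cancel, Units.val_one, mul_one]

variable [IsLocalRing A]

theorem matCont_conjMat (P : GL (Fin 2) A) {r : GQ →* Matrix (Fin 2) (Fin 2) A}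
    (hr : MatCont r) : MatCont (conjMat P r) := by
  intro n
  obtain ⟨L, hL, h⟩ := hr n
  refine ⟨L, hL, fun σ hσ => ?_⟩
  have h1 : conjMat P r σ - 1 = (P : Matrix (Fin 2) (Fin 2) A) * (r σ - 1) *
      ((P⁻¹ : GL (Fin 2) A) : Matrix (Fin 2) (Fin 2) A) := by
    rw [conjMat_apply, mul_sub, sub_mul, mul_one, ← Units.val_mul, mul_inv_cancel, Units.val_one]
  rw [h1]
  exact entries_mul_mem _ (mul_entries_mem _ (h σ hσ) _) _

theorem isEquiv_ofMat_conjMat (P : GL (Fin 2) A) {r : GQ →* Matrix (Fin 2) (Fin 2) A}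
    (hr : MatCont r) : (ofMat r hr).IsEquiv (ofMat (conjMat P r) (matCont_conjMat P hr)) :=
  ⟨equivOfConj hr (matCont_conjMat P hr) P (conjMat_mul_self P r)⟩

/-- Lift an invertible matrix over the residue field to an invertible matrix. -/
theorem exists_gl_lift (Pbar : GL (Fin 2) (IsLocalRing.ResidueField A)) :
    ∃ P : GL (Fin 2) A, (P : Matrix (Fin 2) (Fin 2) A).map (IsLocalRing.residue A) =
      (Pbar : Matrix (Fin 2) (Fin 2) (IsLocalRing.ResidueField A)) := by
  have hsurj := IsLocalRing.residue_surjective (R := A)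
  choose f hf using hsurj
  let M : Matrix (Fin 2) (Fin 2) A := fun i j => f ((Pbar : Matrix _ _ _) i j)
  have hM : M.map (IsLocalRing.residue A) =
      (Pbar : Matrix (Fin 2) (Fin 2) (IsLocalRing.ResidueField A)) := by
    ext i j
    exact hf _
  have hdet : IsUnit M.det := by
    have h1 : IsLocalRing.residue A M.det =
        (Pbar : Matrix (Fin 2) (Fin 2) (IsLocalRing.ResidueField A)).det := by
      rw [RingHom.map_det, RingHom.mapMatrix_apply, hM]
    have h2 : IsUnit ((Pbar : Matrix (Fin 2) (Fin 2) (IsLocalRing.ResidueField A)).det) :=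
      (Matrix.isUnit_iff_isUnit_det _).mp Pbar.isUnit
    rw [← h1] at h2
    exact isUnit_of_map_unit (IsLocalRing.residue A) _ h2
  exact ⟨Matrix.GeneralLinearGroup.mk'' M hdet, hM⟩

theorem baseChangeAlong_ofMat_isEquiv {B : Type} [CommRing B] [IsLocalRing B] (φ : A →+* B)
    (hφ : IsLocalHom φ) (r : GQ →* Matrix (Fin 2) (Fin 2) A) (hr : MatCont r) :
    ((ofMat r hr).baseChangeAlong φ hφ).IsEquiv (ofMat (mapMat φ r) (matCont_mapMat φ hφ hr)) := by
  obtain ⟨e⟩ := baseChangeAlong_isEquiv_ofMat φ hφ (ofMat r hr) (ofMatBasis r hr)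
  obtain ⟨e'⟩ := isEquiv_ofMat_of_eq
    (matCont_mapMat φ hφ (matCont_toMat (ofMat r hr) (ofMatBasis r hr)))
    (matCont_mapMat φ hφ hr) (congrArg (mapMat φ) (toMat_ofMat r hr))
  exact ⟨e.trans e'⟩

/-- If the residual representation of `ρ` is given by the matrices `ι ∘ rbar`, then `ρ` is
equivalent to a matrix representation reducing exactly to `ι ∘ rbar`. -/
theorem exists_ofMat_isEquiv_of_residual {k : Type} [Field k] (ρ : GaloisRepAdic A)
    (rbar : GQ →* Matrix (Fin 2) (Fin 2) k) (hrbar : ResCont rbar)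
    (ι : k →+* IsLocalRing.ResidueField A)
    (h : ρ.residual.IsEquiv (ofMatRes (mapMat ι rbar) (resCont_mapMat ι hrbar))) :
    ∃ (r : GQ →* Matrix (Fin 2) (Fin 2) A) (hr : MatCont r),
      ρ.IsEquiv (ofMat r hr) ∧ mapMat (IsLocalRing.residue A) r = mapMat ι rbar := by
  set b0 := stdBasis ρ
  set r0 := toMat ρ b0
  have hr0 : MatCont r0 := matCont_toMat ρ b0
  obtain ⟨e1⟩ := residual_isEquiv_ofMatRes ρ b0
  obtain ⟨e2⟩ := h
  obtain ⟨Pbar, hPbar⟩ := (ofMatRes_isEquiv_iff (resCont_mapMat_residue hr0)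
    (resCont_mapMat ι hrbar)).mp ⟨e1.symm.trans e2⟩
  obtain ⟨P, hP⟩ := exists_gl_lift Pbar
  refine ⟨conjMat P r0, matCont_conjMat P hr0, ?_, ?_⟩
  · obtain ⟨e3⟩ := isEquiv_ofMat_conjMat P hr0
    exact ⟨(equivOfMatToMat ρ b0).trans e3⟩
  · refine MonoidHom.ext fun σ => ?_
    have hinv : (P : Matrix (Fin 2) (Fin 2) A).map (IsLocalRing.residue A) *
        ((P⁻¹ : GL (Fin 2) A) : Matrix (Fin 2) (Fin 2) A).map (IsLocalRing.residue A) = 1 := by
      rw [← Matrix.map_mul, ← Units.val_mul, mul_inv_cancel, Units.val_one]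
      exact (RingHom.mapMatrix (IsLocalRing.residue A)).map_one
    have h3 := hPbar σ
    rw [mapMat_apply, mapMat_apply] at h3
    rw [mapMat_apply, mapMat_apply, conjMat_apply, Matrix.map_mul, Matrix.map_mul, hP, h3,
      mul_assoc, ← hP, hinv, mul_one]

theorem residual_ofMat_isEquiv_of_eq {k : Type} [Field k]
    (r : GQ →* Matrix (Fin 2) (Fin 2) A) (hr : MatCont r)
    (rbar : GQ →* Matrix (Fin 2) (Fin 2) k) (hrbar : ResCont rbar)
    (ι : k →+* IsLocalRing.ResidueField A)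
    (h : mapMat (IsLocalRing.residue A) r = mapMat ι rbar) :
    (ofMat r hr).residual.IsEquiv (ofMatRes (mapMat ι rbar) (resCont_mapMat ι hrbar)) := by
  obtain ⟨e⟩ := residual_ofMat_isEquiv r hr
  obtain ⟨e'⟩ := isEquiv_ofMatRes_of_eq (resCont_mapMat_residue hr) (resCont_mapMat ι hrbar) h
  exact ⟨e.trans e'⟩

end Conj

end Fermat.Agent.S53_helper35

end
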