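import Mathlib
import Fermat.Prelude.Def_GaloisRep_Adic
import Fermat.Agent.S53_helper35.MatDict

set_option autoImplicit false
set_option linter.unusedSectionVars false

noncomputable section

namespace Fermat.Agent.S53_helper35

open scoped TensorProduct

section Invariants

variable {A : Type} [CommRing A] [IsLocalRing A]

theorem trace_eq_trace_toMat (ρ : GaloisRepAdic A) (b : Module.Basis (Fin 2) A ρ.V) (σ : GQ) :
    ρ.trace σ = (toMat ρ b σ).trace := by
  rw [GaloisRepAdic.trace, toMat_apply]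
  exact LinearMap.trace_eq_matrix_trace A b (ρ.ρ σ)

theorem det_eq_det_toMat (ρ : GaloisRepAdic A) (b : Module.Basis (Fin 2) A ρ.V) (σ : GQ) :
    LinearMap.det (ρ.ρ σ) = (toMat ρ b σ).det := by
  rw [toMat_apply]
  exact (LinearMap.det_toMatrix b (ρ.ρ σ)).symm

theorem charpoly_eq_charpoly_toMat (ρ : GaloisRepAdic A) (b : Module.Basis (Fin 2) A ρ.V)
    (σ : GQ) : LinearMap.charpoly (ρ.ρ σ) = (toMat ρ b σ).charpoly := by
  rw [toMat_apply]
  exact (LinearMap.charpoly_toMatrix (ρ.ρ σ) b).symm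

theorem trace_ofMat (r : GQ →* Matrix (Fin 2) (Fin 2) A) (hr : MatCont r) (σ : GQ) :
    (ofMat r hr).trace σ = (r σ).trace := by
  rw [trace_eq_trace_toMat (ofMat r hr) (ofMatBasis r hr), toMat_ofMat]

theorem det_ofMat (r : GQ →* Matrix (Fin 2) (Fin 2) A) (hr : MatCont r) (σ : GQ) :
    LinearMap.det ((ofMat r hr).ρ σ) = (r σ).det := by
  rw [det_eq_det_toMat (ofMat r hr) (ofMatBasis r hr), toMat_ofMat]

theorem charpoly_ofMat (r : GQ →* Matrix (Fin 2) (Fin 2) A) (hr : MatCont r) (σ : GQ) :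
    LinearMap.charpoly ((ofMat r hr).ρ σ) = (r σ).charpoly := by
  rw [charpoly_eq_charpoly_toMat (ofMat r hr) (ofMatBasis r hr), toMat_ofMat]

/-- Equivalent representations have conjugate operators. -/
theorem Equiv_conj {ρ ρ' : GaloisRepAdic A} (e : GaloisRepAdic.Equiv ρ ρ') (σ : GQ) :
    ρ'.ρ σ = e.toLinearEquiv.conj (ρ.ρ σ) := by
  refine LinearMap.ext fun x => ?_
  rw [LinearEquiv.conj_apply, LinearMap.comp_apply, LinearMap.comp_apply]
  show ρ'.ρ σ x = e.toLinearEquiv (ρ.ρ σ (e.toLinearEquiv.symm x))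
  rw [e.map_apply, LinearEquiv.apply_symm_apply]

theorem trace_eq_of_isEquiv {ρ ρ' : GaloisRepAdic A} (h : ρ.IsEquiv ρ') (σ : GQ) :
    ρ.trace σ = ρ'.trace σ := by
  obtain ⟨e⟩ := h
  rw [GaloisRepAdic.trace, GaloisRepAdic.trace, Equiv_conj e σ, LinearMap.trace_conj']

theorem det_eq_of_isEquiv {ρ ρ' : GaloisRepAdic A} (h : ρ.IsEquiv ρ') (σ : GQ) :
    LinearMap.det (ρ.ρ σ) = LinearMap.det (ρ'.ρ σ) := by
  obtain ⟨e⟩ := h
  rw [Equiv_conj e σ]
  exact (LinearMap.det_conj (ρ.ρ σ) e.toLinearEquiv).symm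

theorem charpoly_eq_of_isEquiv {ρ ρ' : GaloisRepAdic A} (h : ρ.IsEquiv ρ') (σ : GQ) :
    LinearMap.charpoly (ρ.ρ σ) = LinearMap.charpoly (ρ'.ρ σ) := by
  obtain ⟨e⟩ := h
  rw [Equiv_conj e σ, LinearEquiv.charpoly_conj]

theorem trace_baseChangeAlong {B : Type} [CommRing B] [IsLocalRing B] (φ : A →+* B)
    (hφ : IsLocalHom φ) (ρ : GaloisRepAdic A) (σ : GQ) :
    (ρ.baseChangeAlong φ hφ).trace σ = φ (ρ.trace σ) := by
  rw [trace_eq_trace_toMat _ (bcBasis φ hφ ρ (stdBasis ρ)), toMat_baseChangeAlong,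
    trace_eq_trace_toMat ρ (stdBasis ρ), mapMat_apply]
  simp [Matrix.trace]

end Invariants

section Continuity

variable {A : Type} [CommRing A] [IsLocalRing A]

/-- A representation which is trivial on an open subgroup is continuous. -/
theorem matCont_of_eq_one {r : GQ →* Matrix (Fin 2) (Fin 2) A}
    (h : ∃ L : IntermediateField ℚ (AlgebraicClosure ℚ), FiniteDimensional ℚ L ∧
      ∀ σ : GQ, (∀ x ∈ L, σ x = x) → r σ = 1) : MatCont r := by
  obtain ⟨L, hL, h⟩ := h
  intro n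
  refine ⟨L, hL, fun σ hσ i j => ?_⟩
  rw [h σ hσ, sub_self]
  exact Ideal.zero_mem _

/-- Over a ring with nilpotent maximal ideal, continuity means triviality on an open subgroup. -/
theorem matCont_iff_of_pow_eq_bot {r : GQ →* Matrix (Fin 2) (Fin 2) A} {N : ℕ}
    (hN : IsLocalRing.maximalIdeal A ^ N = ⊥) :
    MatCont r ↔ ∃ L : IntermediateField ℚ (AlgebraicClosure ℚ), FiniteDimensional ℚ L ∧
      ∀ σ : GQ, (∀ x ∈ L, σ x = x) → r σ = 1 := by
  refine ⟨fun h => ?_, matCont_of_eq_one⟩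
  obtain ⟨L, hL, h⟩ := h N
  refine ⟨L, hL, fun σ hσ => ?_⟩
  ext i j
  have h1 := h σ hσ i j
  rw [hN, Ideal.mem_bot, Matrix.sub_apply, sub_eq_zero] at h1
  exact h1

/-- Continuity can be tested modulo all powers of the maximal ideal. -/
theorem matCont_iff_forall_quotient {r : GQ →* Matrix (Fin 2) (Fin 2) A} :
    MatCont r ↔ ∀ n : ℕ, ∃ L : IntermediateField ℚ (AlgebraicClosure ℚ), FiniteDimensional ℚ L ∧
      ∀ σ : GQ, (∀ x ∈ L, σ x = x) →
        (r σ).map (Ideal.Quotient.mk (IsLocalRing.maximalIdeal A ^ n)) = 1 := by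
  have key : ∀ (n : ℕ) (σ : GQ),
      (r σ).map (Ideal.Quotient.mk (IsLocalRing.maximalIdeal A ^ n)) = 1 ↔
        ∀ i j, (r σ - 1) i j ∈ IsLocalRing.maximalIdeal A ^ n := by
    intro n σ
    constructor
    · intro h i j
      have h1 := congrFun (congrFun h i) j
      rw [Matrix.map_apply] at h1
      rw [Matrix.sub_apply, ← Ideal.Quotient.eq, h1]
      by_cases hij : i = j
      · rw [hij, Matrix.one_apply_eq, Matrix.one_apply_eq, map_one]
      · rw [Matrix.one_apply_ne hij, Matrix.one_apply_ne hij, map_zero]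
    · intro h
      ext i j
      have h1 := h i j
      rw [Matrix.sub_apply, ← Ideal.Quotient.eq] at h1
      rw [Matrix.map_apply, h1]
      by_cases hij : i = j
      · rw [hij, Matrix.one_apply_eq, Matrix.one_apply_eq, map_one]
      · rw [Matrix.one_apply_ne hij, Matrix.one_apply_ne hij, map_zero]
  constructor
  · intro h n
    obtain ⟨L, hL, h⟩ := h n
    exact ⟨L, hL, fun σ hσ => (key n σ).mpr (h σ hσ)⟩
  · intro h n
    obtain ⟨L, hL, h⟩ := h n
    exact ⟨L, hL, fun σ hσ => (key n σ).mp (h σ hσ)⟩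

variable {B : Type} [CommRing B] [IsLocalRing B]

/-- Continuity descends along an injective ring homomorphism into a ring with nilpotent
maximal ideal. -/
theorem matCont_of_mapMat_injective (φ : A →+* B) (hinj : Function.Injective φ) {N : ℕ}
    (hN : IsLocalRing.maximalIdeal B ^ N = ⊥) {r : GQ →* Matrix (Fin 2) (Fin 2) A}
    (h : MatCont (mapMat φ r)) : MatCont r := by
  obtain ⟨L, hL, h⟩ := (matCont_iff_of_pow_eq_bot hN).mp h
  refine matCont_of_eq_one ⟨L, hL, fun σ hσ => ?_⟩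
  have h1 := h σ hσ
  rw [mapMat_apply] at h1
  ext i j
  apply hinj
  have h2 := congrFun (congrFun h1 i) j
  rw [Matrix.map_apply] at h2
  rw [h2]
  by_cases hij : i = j
  · rw [hij, Matrix.one_apply_eq, Matrix.one_apply_eq, map_one]
  · rw [Matrix.one_apply_ne hij, Matrix.one_apply_ne hij, map_zero]

end Continuity

end Fermat.Agent.S53_helper35

end
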