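import Mathlib
import Fermat.Prelude.Def_GaloisRep_Adic
import Fermat.Agent.S53_helper35.MatDict
import Fermat.Agent.S53_helper35.MatDict2
import Fermat.Agent.S53_helper59.Burnside
import Fermat.Agent.S53_helper60.Carayol
import Fermat.Agent.S53_helper39.Descent

set_option autoImplicit false
set_option linter.unusedSectionVars false

noncomputable section

namespace Fermat.Agent.S53_helper35

open scoped TensorProduct

section SpanTransport

variable {A : Type} [CommRing A] {B : Type} [CommRing B]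

/-- The full matrix algebra is spanned by the images of a spanning set under a ring map. -/
theorem span_map_eq_top (φ : A →+* B) {S : Set (Matrix (Fin 2) (Fin 2) A)}
    (hS : Submodule.span A S = ⊤) :
    Submodule.span B ((fun M : Matrix (Fin 2) (Fin 2) A => M.map φ) '' S) = ⊤ := by
  have key : ∀ x : Matrix (Fin 2) (Fin 2) A,
      x.map φ ∈ Submodule.span B ((fun M : Matrix (Fin 2) (Fin 2) A => M.map φ) '' S) := by
    intro x
    have hx : x ∈ Submodule.span A S := by rw [hS]; trivial
    induction hx using Submodule.span_induction with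
    | mem x hx => exact Submodule.subset_span ⟨x, hx, rfl⟩
    | zero =>
      have : (0 : Matrix (Fin 2) (Fin 2) A).map φ = 0 := (RingHom.mapMatrix φ).map_zero
      rw [this]; exact Submodule.zero_mem _
    | add x y _ _ hx hy =>
      have : (x + y).map φ = x.map φ + y.map φ := (RingHom.mapMatrix φ).map_add x y
      rw [this]; exact Submodule.add_mem _ hx hy
    | smul c x _ hx =>
      have : (c • x).map φ = φ c • x.map φ := by
        ext i j
        simp [Matrix.map_apply, Matrix.smul_apply]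
      rw [this]; exact Submodule.smul_mem _ _ hx
  rw [eq_top_iff]
  intro m _
  rw [Matrix.matrix_eq_sum_single m]
  refine Submodule.sum_mem _ fun i _ => Submodule.sum_mem _ fun j _ => ?_
  have h1 : Matrix.single i j (m i j) = (m i j) • (Matrix.single i j (1 : A)).map φ := by
    ext a b
    simp [Matrix.single_apply, Matrix.smul_apply]
  rw [h1]
  exact Submodule.smul_mem _ _ (key _)

theorem span_range_mapMat_eq_top (φ : A →+* B) {r : GQ →* Matrix (Fin 2) (Fin 2) A}
    (h : Submodule.span A (Set.range r) = ⊤) :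
    Submodule.span B (Set.range (mapMat φ r)) = ⊤ := by
  have := span_map_eq_top φ h
  rw [← Set.range_comp] at this
  exact this

/-- Having full span is invariant under conjugation. -/
theorem span_range_eq_top_of_conj {r r' : GQ →* Matrix (Fin 2) (Fin 2) A} (P : GL (Fin 2) A)
    (hP : ∀ σ, (P : Matrix (Fin 2) (Fin 2) A) * r σ = r' σ * (P : Matrix (Fin 2) (Fin 2) A))
    (h : Submodule.span A (Set.range r) = ⊤) : Submodule.span A (Set.range r') = ⊤ := by
  have hinv : (P : Matrix (Fin 2) (Fin 2) A) * ((P⁻¹ : GL (Fin 2) A) : Matrix (Fin 2) (Fin 2) A) = 1 := by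
    rw [← Units.val_mul, mul_inv_cancel, Units.val_one]
  have hinv' : ((P⁻¹ : GL (Fin 2) A) : Matrix (Fin 2) (Fin 2) A) * (P : Matrix (Fin 2) (Fin 2) A) = 1 := by
    rw [← Units.val_mul, inv_mul_cancel, Units.val_one]
  have key : ∀ x : Matrix (Fin 2) (Fin 2) A,
      (P : Matrix (Fin 2) (Fin 2) A) * x * ((P⁻¹ : GL (Fin 2) A) : Matrix (Fin 2) (Fin 2) A) ∈
        Submodule.span A (Set.range r') := by
    intro x
    have hx : x ∈ Submodule.span A (Set.range r) := by rw [h]; trivial
    induction hx using Submodule.span_induction with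
    | mem x hx =>
      obtain ⟨σ, rfl⟩ := hx
      rw [hP σ, mul_assoc, hinv, mul_one]
      exact Submodule.subset_span ⟨σ, rfl⟩
    | zero => rw [mul_zero, zero_mul]; exact Submodule.zero_mem _
    | add x y _ _ hx hy => rw [mul_add, add_mul]; exact Submodule.add_mem _ hx hy
    | smul c x _ hx =>
      rw [Matrix.mul_smul, Matrix.smul_mul]; exact Submodule.smul_mem _ _ hx
  rw [eq_top_iff]
  intro m _
  have := key (((P⁻¹ : GL (Fin 2) A) : Matrix (Fin 2) (Fin 2) A) * m *
    (P : Matrix (Fin 2) (Fin 2) A))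
  rwa [← mul_assoc, ← mul_assoc, hinv, one_mul, mul_assoc, hinv, mul_one] at this

end SpanTransport

section AbsIrr

variable {k : Type} [Field k]

/-- Burnside in matrix form for the prelude structure. -/
theorem span_range_toMatRes_eq_top (ρbar : ResidualGaloisRep k)
    (habs : ρbar.IsAbsolutelyIrreducible) (b : Module.Basis (Fin 2) k ρbar.V) :
    Submodule.span k (Set.range (toMatRes ρbar b)) = ⊤ := by
  have h := Fermat.Agent.S53_helper59.span_range_eq_top_of_isAbsolutelyIrreducible ρbar habs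
  have h2 : Set.range (toMatRes ρbar b) =
      (LinearMap.toMatrixAlgEquiv b : Module.End k ρbar.V ≃ₐ[k] Matrix (Fin 2) (Fin 2) k) ''
        Set.range ρbar.ρ := by
    rw [← Set.range_comp]
    rfl
  rw [h2]
  have h3 := Submodule.map_span
    ((LinearMap.toMatrixAlgEquiv b : Module.End k ρbar.V ≃ₐ[k] Matrix (Fin 2) (Fin 2) k).toLinearEquiv :
      Module.End k ρbar.V →ₗ[k] Matrix (Fin 2) (Fin 2) k) (Set.range ρbar.ρ)
  rw [h, Submodule.map_top, LinearMap.range_eq_top.mpr (LinearEquiv.surjective _)] at h3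
  exact h3.symm

end AbsIrr

section Lifts

variable {A : Type} [CommRing A] [IsLocalRing A] {k : Type} [Field k]

/-- Nakayama lift of Burnside, matrix form: a matrix representation reducing to a spanning
residual representation is itself spanning. -/
theorem span_range_eq_top_of_mapMat_residue {r : GQ →* Matrix (Fin 2) (Fin 2) A}
    {rbar : GQ →* Matrix (Fin 2) (Fin 2) k} (ι : k →+* IsLocalRing.ResidueField A)
    (hbar : Submodule.span k (Set.range rbar) = ⊤)
    (h : mapMat (IsLocalRing.residue A) r = mapMat ι rbar) :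
    Submodule.span A (Set.range r) = ⊤ := by
  apply Fermat.Agent.S53_helper60.span_range_eq_top_of_residue r
  have h1 : (Set.range fun g => (r g).map (IsLocalRing.residue A)) =
      Set.range (mapMat ι rbar) := by
    rw [← h]
    rfl
  rw [h1]
  exact span_range_mapMat_eq_top ι hbar

/-- Nakayama lift of Burnside on the prelude structures: the matrices (in any basis) of a
deformation of an absolutely irreducible residual representation span the matrix algebra. -/
theorem span_range_toMat_eq_top (ρ : GaloisRepAdic A) (b : Module.Basis (Fin 2) A ρ.V)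
    (ρbar : ResidualGaloisRep k) (habs : ρbar.IsAbsolutelyIrreducible)
    (ι : k →+* IsLocalRing.ResidueField A)
    (h : ρ.residual.IsEquiv (ρbar.baseChangeAlong ι)) :
    Submodule.span A (Set.range (toMat ρ b)) = ⊤ := by
  apply Fermat.Agent.S53_helper60.span_range_eq_top_of_residue (toMat ρ b)
  set bbar := stdBasisRes ρbar
  obtain ⟨e1⟩ := residual_isEquiv_ofMatRes ρ b
  obtain ⟨e2⟩ := h
  obtain ⟨e3⟩ := baseChangeAlong_isEquiv_ofMatRes ι ρbar bbar
  obtain ⟨P, hP⟩ := (ofMatRes_isEquiv_iff _ _).mp ⟨(e3.symm.trans e2.symm).trans e1⟩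
  have h1 : (Set.range fun g => (toMat ρ b g).map (IsLocalRing.residue A)) =
      Set.range (mapMat (IsLocalRing.residue A) (toMat ρ b)) := rfl
  rw [h1]
  exact span_range_eq_top_of_conj P hP
    (span_range_mapMat_eq_top ι (span_range_toMatRes_eq_top ρbar habs bbar))

/-- Carayol uniqueness on the prelude structures. -/
theorem isEquiv_of_trace_eq (ρ ρ' : GaloisRepAdic A)
    (ρbar : ResidualGaloisRep k) (habs : ρbar.IsAbsolutelyIrreducible)
    (ι : k →+* IsLocalRing.ResidueField A)
    (h : ρ.residual.IsEquiv (ρbar.baseChangeAlong ι))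
    (h' : ρ'.residual.IsEquiv (ρbar.baseChangeAlong ι))
    (htr : ∀ σ, ρ.trace σ = ρ'.trace σ) : ρ.IsEquiv ρ' := by
  set b := stdBasis ρ
  set b' := stdBasis ρ'
  have hs := span_range_toMat_eq_top ρ b ρbar habs ι h
  have hs' := span_range_toMat_eq_top ρ' b' ρbar habs ι h'
  obtain ⟨P, hP⟩ := Fermat.Agent.S53_helper60.exists_conj_of_trace_eq (toMat ρ b) (toMat ρ' b')
    hs hs' (fun σ => by
      rw [← trace_eq_trace_toMat ρ b σ, ← trace_eq_trace_toMat ρ' b' σ, htr σ])
  obtain ⟨e⟩ := (ofMat_isEquiv_iff (matCont_toMat ρ b) (matCont_toMat ρ' b')).mpr ⟨P, hP⟩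
  exact ⟨((equivOfMatToMat ρ b).trans e).trans (equivOfMatToMat ρ' b').symm⟩

/-- Carayol uniqueness, matrix form with continuity bookkeeping. -/
theorem ofMat_isEquiv_of_trace_eq {r r' : GQ →* Matrix (Fin 2) (Fin 2) A} (hr : MatCont r)
    (hr' : MatCont r') (hs : Submodule.span A (Set.range r) = ⊤)
    (hs' : Submodule.span A (Set.range r') = ⊤) (htr : ∀ σ, (r σ).trace = (r' σ).trace) :
    (ofMat r hr).IsEquiv (ofMat r' hr') := by
  obtain ⟨P, hP⟩ := Fermat.Agent.S53_helper60.exists_conj_of_trace_eq r r' hs hs' htr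
  exact (ofMat_isEquiv_iff hr hr').mpr ⟨P, hP⟩

/-- Schur's lemma, matrix form: anything commuting with a spanning representation is scalar. -/
theorem exists_eq_scalar_of_commute {r : GQ →* Matrix (Fin 2) (Fin 2) A}
    (hs : Submodule.span A (Set.range r) = ⊤) {m : Matrix (Fin 2) (Fin 2) A}
    (hm : ∀ σ, m * r σ = r σ * m) : ∃ a : A, m = Matrix.scalar (Fin 2) a := by
  obtain ⟨a, ha⟩ := Fermat.Agent.S53_helper60.mem_range_scalar_of_commute r hs
    (m := m) (fun σ => (hm σ).symm)
  exact ⟨a, ha.symm⟩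

end Lifts

section Descent

variable {A₀ : Type} [CommRing A₀] {A : Type} [CommRing A]

theorem map_injective_of_injective (ι : A₀ →+* A) (hinj : Function.Injective ι) :
    Function.Injective (fun M : Matrix (Fin 2) (Fin 2) A₀ => M.map ι) := by
  intro M M' h
  ext i j
  apply hinj
  have := congrFun (congrFun h i) j
  simpa [Matrix.map_apply] using this

/-- Pull a matrix representation back along an injective ring map containing all its entries
in its range. -/
def liftMat (ι : A₀ →+* A) (hinj : Function.Injective ι) (r : GQ →* Matrix (Fin 2) (Fin 2) A)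
    (h : ∀ σ i j, r σ i j ∈ Set.range ι) : GQ →* Matrix (Fin 2) (Fin 2) A₀ where
  toFun σ := Matrix.of fun i j => (h σ i j).choose
  map_one' := by
    apply map_injective_of_injective ι hinj
    show (Matrix.of fun i j => (h 1 i j).choose).map ι = (1 : Matrix (Fin 2) (Fin 2) A₀).map ι
    have h1 : (1 : Matrix (Fin 2) (Fin 2) A₀).map ι = 1 := (RingHom.mapMatrix ι).map_one
    rw [h1, ← map_one r]
    ext i j
    exact (h 1 i j).choose_spec
  map_mul' σ τ := by
    apply map_injective_of_injective ι hinj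
    show (Matrix.of fun i j => (h (σ * τ) i j).choose).map ι =
      ((Matrix.of fun i j => (h σ i j).choose) * (Matrix.of fun i j => (h τ i j).choose)).map ι
    rw [Matrix.map_mul]
    have h1 : ∀ ρ : GQ, (Matrix.of fun i j => (h ρ i j).choose).map ι = r ρ := by
      intro ρ
      ext i j
      exact (h ρ i j).choose_spec
    rw [h1, h1, h1, map_mul]

theorem mapMat_liftMat (ι : A₀ →+* A) (hinj : Function.Injective ι)
    (r : GQ →* Matrix (Fin 2) (Fin 2) A) (h : ∀ σ i j, r σ i j ∈ Set.range ι) :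
    mapMat ι (liftMat ι hinj r h) = r := by
  refine MonoidHom.ext fun σ => ?_
  ext i j
  exact (h σ i j).choose_spec

variable [IsLocalRing A₀] [IsLocalRing A]

/-- Carayol existence (descent of coefficients), matrix form with continuity bookkeeping. -/
theorem exists_descent_mat (ι : A₀ →+* A) (hι : IsLocalHom ι) (hinj : Function.Injective ι)
    {N : ℕ} (hN : IsLocalRing.maximalIdeal A ^ N = ⊥)
    (hres : ∀ a : A, ∃ a₀ : A₀, a - ι a₀ ∈ IsLocalRing.maximalIdeal A)
    {r : GQ →* Matrix (Fin 2) (Fin 2) A} (hr : MatCont r)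
    (hs : Submodule.span A (Set.range r) = ⊤) (htr : ∀ σ, (r σ).trace ∈ Set.range ι) :
    ∃ (r₀ : GQ →* Matrix (Fin 2) (Fin 2) A₀) (hr₀ : MatCont r₀),
      (ofMat (mapMat ι r₀) (matCont_mapMat ι hι hr₀)).IsEquiv (ofMat r hr) := by
  obtain ⟨P, Q, hPQ, hQP, hent⟩ := Fermat.Agent.S53_helper39.descent_monoidHom ⟨N, hN⟩ ι.range
    (fun a ha hu => by
      obtain ⟨a₀, rfl⟩ := ha
      have hu₀ : IsUnit a₀ := isUnit_of_map_unit ι a₀ hu
      obtain ⟨u, rfl⟩ := hu₀
      exact ⟨ι ((u⁻¹ : A₀ˣ) : A₀), ⟨_, rfl⟩, by rw [← map_mul, Units.mul_inv, map_one]⟩)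
    (fun a => by
      obtain ⟨a₀, ha₀⟩ := hres a
      exact ⟨ι a₀, ⟨a₀, rfl⟩, ha₀⟩)
    r hs (fun σ => htr σ)
  let Pu : GL (Fin 2) A := ⟨P, Q, hPQ, hQP⟩
  have hconj : ∀ σ, conjMat Pu r σ = P * r σ * Q := fun σ => rfl
  have hent' : ∀ σ i j, conjMat Pu r σ i j ∈ Set.range ι := fun σ i j => by
    rw [hconj]; exact hent σ i j
  set r₀ := liftMat ι hinj (conjMat Pu r) hent'
  have hmap : mapMat ι r₀ = conjMat Pu r := mapMat_liftMat ι hinj _ hent'
  have hr₀ : MatCont r₀ := by
    apply matCont_of_mapMat_injective ι hinj hN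
    rw [hmap]
    exact matCont_conjMat Pu hr
  refine ⟨r₀, hr₀, ?_⟩
  obtain ⟨e1⟩ := isEquiv_ofMat_of_eq (matCont_mapMat ι hι hr₀) (matCont_conjMat Pu hr) hmap
  obtain ⟨e2⟩ := isEquiv_ofMat_conjMat Pu hr
  exact ⟨e1.trans e2.symm⟩

/-- Carayol existence (descent of coefficients) on the prelude structures. -/
theorem exists_descent (ι : A₀ →+* A) (hι : IsLocalHom ι) (hinj : Function.Injective ι)
    {N : ℕ} (hN : IsLocalRing.maximalIdeal A ^ N = ⊥)
    (hres : ∀ a : A, ∃ a₀ : A₀, a - ι a₀ ∈ IsLocalRing.maximalIdeal A)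
    (ρ : GaloisRepAdic A)
    (hs : Submodule.span A (Set.range (toMat ρ (stdBasis ρ))) = ⊤)
    (htr : ∀ σ, ρ.trace σ ∈ Set.range ι) :
    ∃ ρ₀ : GaloisRepAdic A₀, (ρ₀.baseChangeAlong ι hι).IsEquiv ρ := by
  obtain ⟨r₀, hr₀, ⟨e⟩⟩ := exists_descent_mat ι hι hinj hN hres (matCont_toMat ρ (stdBasis ρ)) hs
    (fun σ => by rw [← trace_eq_trace_toMat]; exact htr σ)
  obtain ⟨e'⟩ := baseChangeAlong_ofMat_isEquiv ι hι r₀ hr₀
  exact ⟨ofMat r₀ hr₀, ⟨(e'.trans e).trans (equivOfMatToMat ρ (stdBasis ρ)).symm⟩⟩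

end Descent

end Fermat.Agent.S53_helper35

end
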