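import Mathlib
import Fermat.Prelude.Def_GaloisRep_DeformationCondition
import Fermat.Agent.S53_helper35.MatDict
import Fermat.Agent.S53_helper35.MatDict2
import Fermat.Agent.S53_helper84.TestAlg

set_option autoImplicit false
set_option linter.unusedSectionVars false

noncomputable section

namespace Fermat.Agent.S53_helper35

open GaloisRep IsLocalRing

variable {𝒪 : Type} [CommRing 𝒪] [IsLocalRing 𝒪]
variable {𝒟 : ∀ ⦃A : Type⦄ [CommRing A] [IsLocalRing A] [Algebra 𝒪 A], GaloisRepAdic A → Prop}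

section Basic

variable {A : Type} [CommRing A] [IsLocalRing A] [Algebra 𝒪 A]

theorem isEquiv_symm {ρ ρ' : GaloisRepAdic A} (h : ρ.IsEquiv ρ') : ρ'.IsEquiv ρ := by
  obtain ⟨e⟩ := h
  exact ⟨e.symm⟩

theorem isEquiv_trans {ρ ρ' ρ'' : GaloisRepAdic A} (h : ρ.IsEquiv ρ') (h' : ρ'.IsEquiv ρ'') :
    ρ.IsEquiv ρ'' := by
  obtain ⟨e⟩ := h
  obtain ⟨e'⟩ := h'
  exact ⟨e.trans e'⟩

/-- (D1') The condition only depends on the equivalence class. -/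
theorem D_congr (h𝒟 : IsDeformationCondition 𝒪 𝒟) (hA : IsArtinianTestAlgebra 𝒪 A)
    {ρ ρ' : GaloisRepAdic A} (h : ρ.IsEquiv ρ') : 𝒟 ρ ↔ 𝒟 ρ' :=
  ⟨h𝒟.of_isEquiv hA h, h𝒟.of_isEquiv hA (isEquiv_symm h)⟩

/-- Equal matrix families give the same condition. -/
theorem D_of_eq (h𝒟 : IsDeformationCondition 𝒪 𝒟) (hA : IsArtinianTestAlgebra 𝒪 A)
    {r r' : GQ →* Matrix (Fin 2) (Fin 2) A} (hr : MatCont r) (hr' : MatCont r')
    (h : ∀ σ, r σ = r' σ) (hD : 𝒟 (ofMat r hr)) : 𝒟 (ofMat r' hr') := by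
  have : r = r' := MonoidHom.ext h
  subst this
  exact hD

/-- (D1) The condition is stable under conjugation. -/
theorem D_conj (h𝒟 : IsDeformationCondition 𝒪 𝒟) (hA : IsArtinianTestAlgebra 𝒪 A)
    (P : GL (Fin 2) A) {r : GQ →* Matrix (Fin 2) (Fin 2) A} (hr : MatCont r)
    (hD : 𝒟 (ofMat r hr)) : 𝒟 (ofMat (conjMat P r) (matCont_conjMat P hr)) :=
  h𝒟.of_isEquiv hA (isEquiv_ofMat_conjMat P hr) hD

theorem D_conj_iff (h𝒟 : IsDeformationCondition 𝒪 𝒟) (hA : IsArtinianTestAlgebra 𝒪 A)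
    (P : GL (Fin 2) A) {r : GQ →* Matrix (Fin 2) (Fin 2) A} (hr : MatCont r) :
    𝒟 (ofMat (conjMat P r) (matCont_conjMat P hr)) ↔ 𝒟 (ofMat r hr) :=
  (D_congr h𝒟 hA (isEquiv_ofMat_conjMat P hr)).symm

end Basic

section Maps

variable {A B : Type} [CommRing A] [IsLocalRing A] [Algebra 𝒪 A]
  [CommRing B] [IsLocalRing B] [Algebra 𝒪 B]

/-- (D2) The condition is stable under push-forward of matrices. -/
theorem D_mapMat (h𝒟 : IsDeformationCondition 𝒪 𝒟) (hA : IsArtinianTestAlgebra 𝒪 A)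
    (hB : IsArtinianTestAlgebra 𝒪 B) (φ : A →ₐ[𝒪] B) (hφ : IsLocalHom (φ : A →+* B))
    {r : GQ →* Matrix (Fin 2) (Fin 2) A} (hr : MatCont r) (hD : 𝒟 (ofMat r hr)) :
    𝒟 (ofMat (mapMat (φ : A →+* B) r) (matCont_mapMat _ hφ hr)) :=
  h𝒟.of_isEquiv hB (baseChangeAlong_ofMat_isEquiv _ hφ r hr)
    (h𝒟.baseChangeAlong hA hB φ hφ hD)

/-- (D2) with a free target family. -/
theorem D_of_map_eq (h𝒟 : IsDeformationCondition 𝒪 𝒟) (hA : IsArtinianTestAlgebra 𝒪 A)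
    (hB : IsArtinianTestAlgebra 𝒪 B) (φ : A →ₐ[𝒪] B) (hφ : IsLocalHom (φ : A →+* B))
    {r : GQ →* Matrix (Fin 2) (Fin 2) A} (hr : MatCont r)
    {r' : GQ →* Matrix (Fin 2) (Fin 2) B} (hr' : MatCont r')
    (h : ∀ σ, r' σ = (r σ).map φ) (hD : 𝒟 (ofMat r hr)) : 𝒟 (ofMat r' hr') :=
  D_of_eq h𝒟 hB (matCont_mapMat _ hφ hr) hr' (fun σ => (h σ).symm) (D_mapMat h𝒟 hA hB φ hφ hr hD)

/-- (D3) The condition descends along injective maps. -/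
theorem D_of_mapMat_injective (h𝒟 : IsDeformationCondition 𝒪 𝒟)
    (hA : IsArtinianTestAlgebra 𝒪 A) (hB : IsArtinianTestAlgebra 𝒪 B) (φ : A →ₐ[𝒪] B)
    (hφ : IsLocalHom (φ : A →+* B)) (hinj : Function.Injective φ)
    {r : GQ →* Matrix (Fin 2) (Fin 2) A} (hr : MatCont r)
    (hD : 𝒟 (ofMat (mapMat (φ : A →+* B) r) (matCont_mapMat _ hφ hr))) : 𝒟 (ofMat r hr) :=
  h𝒟.of_baseChangeAlong_injective hA hB φ hφ hinj
    (h𝒟.of_isEquiv hB (isEquiv_symm (baseChangeAlong_ofMat_isEquiv _ hφ r hr)) hD)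

theorem D_of_map_eq_injective (h𝒟 : IsDeformationCondition 𝒪 𝒟)
    (hA : IsArtinianTestAlgebra 𝒪 A) (hB : IsArtinianTestAlgebra 𝒪 B) (φ : A →ₐ[𝒪] B)
    (hφ : IsLocalHom (φ : A →+* B)) (hinj : Function.Injective φ)
    {r : GQ →* Matrix (Fin 2) (Fin 2) A} (hr : MatCont r)
    {r' : GQ →* Matrix (Fin 2) (Fin 2) B} (hr' : MatCont r')
    (h : ∀ σ, r' σ = (r σ).map φ) (hD : 𝒟 (ofMat r' hr')) : 𝒟 (ofMat r hr) :=
  D_of_mapMat_injective h𝒟 hA hB φ hφ hinj hr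
    (D_of_eq h𝒟 hB hr' (matCont_mapMat _ hφ hr) h hD)

end Maps

section FibreProduct

variable {A B C P : Type} [CommRing A] [IsLocalRing A] [Algebra 𝒪 A]
  [CommRing B] [IsLocalRing B] [Algebra 𝒪 B] [CommRing C] [IsLocalRing C] [Algebra 𝒪 C]
  [CommRing P] [IsLocalRing P] [Algebra 𝒪 P]

/-- (D4) Matrix form of the fibre product axiom. -/
theorem D_fibreProduct (h𝒟 : IsDeformationCondition 𝒪 𝒟)
    (hA : IsArtinianTestAlgebra 𝒪 A) (hB : IsArtinianTestAlgebra 𝒪 B)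
    (hC : IsArtinianTestAlgebra 𝒪 C) (hP : IsArtinianTestAlgebra 𝒪 P)
    (f : A →ₐ[𝒪] C) (g : B →ₐ[𝒪] C) (pA : P →ₐ[𝒪] A) (pB : P →ₐ[𝒪] B)
    (hpA : IsLocalHom (pA : P →+* A)) (hpB : IsLocalHom (pB : P →+* B))
    (hcomm : f.comp pA = g.comp pB)
    (hinj : Function.Injective (fun x => (pA x, pB x)))
    (hglue : ∀ a b, f a = g b → ∃ x, pA x = a ∧ pB x = b)
    {r : GQ →* Matrix (Fin 2) (Fin 2) P} (hr : MatCont r)
    (h1 : 𝒟 (ofMat (mapMat (pA : P →+* A) r) (matCont_mapMat _ hpA hr)))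
    (h2 : 𝒟 (ofMat (mapMat (pB : P →+* B) r) (matCont_mapMat _ hpB hr))) :
    𝒟 (ofMat r hr) :=
  h𝒟.of_fibreProduct hA hB hC hP f g pA pB hpA hpB hcomm hinj hglue
    (h𝒟.of_isEquiv hA (isEquiv_symm (baseChangeAlong_ofMat_isEquiv _ hpA r hr)) h1)
    (h𝒟.of_isEquiv hB (isEquiv_symm (baseChangeAlong_ofMat_isEquiv _ hpB r hr)) h2)

end FibreProduct

section Inf

open Fermat.Agent.S53_helper84

variable {Λ : Type} [CommRing Λ] [Algebra 𝒪 Λ] (I J : Ideal Λ)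

theorem isLocalHom_fpA [IsLocalRing (Λ ⧸ I)] [IsLocalRing (Λ ⧸ (I ⊓ J))] :
    IsLocalHom ((fpA (𝒪 := 𝒪) I J : Λ ⧸ (I ⊓ J) →ₐ[𝒪] Λ ⧸ I) : Λ ⧸ (I ⊓ J) →+* Λ ⧸ I) :=
  IsLocalHom.of_surjective _ (Ideal.Quotient.factor_surjective inf_le_left)

theorem isLocalHom_fpB [IsLocalRing (Λ ⧸ J)] [IsLocalRing (Λ ⧸ (I ⊓ J))] :
    IsLocalHom ((fpB (𝒪 := 𝒪) I J : Λ ⧸ (I ⊓ J) →ₐ[𝒪] Λ ⧸ J) : Λ ⧸ (I ⊓ J) →+* Λ ⧸ J) :=
  IsLocalHom.of_surjective _ (Ideal.Quotient.factor_surjective inf_le_right)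

/-- (D4') Closure of the condition under intersections of ideals. -/
theorem D_inf (h𝒟 : IsDeformationCondition 𝒪 𝒟)
    [IsLocalRing (Λ ⧸ I)] [IsLocalRing (Λ ⧸ J)] [IsLocalRing (Λ ⧸ (I ⊔ J))]
    [IsLocalRing (Λ ⧸ (I ⊓ J))]
    (hI : IsArtinianTestAlgebra 𝒪 (Λ ⧸ I)) (hJ : IsArtinianTestAlgebra 𝒪 (Λ ⧸ J))
    (hS : IsArtinianTestAlgebra 𝒪 (Λ ⧸ (I ⊔ J))) (hP : IsArtinianTestAlgebra 𝒪 (Λ ⧸ (I ⊓ J)))
    {r : GQ →* Matrix (Fin 2) (Fin 2) (Λ ⧸ (I ⊓ J))} (hr : MatCont r)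
    {rI : GQ →* Matrix (Fin 2) (Fin 2) (Λ ⧸ I)} (hrI : MatCont rI)
    {rJ : GQ →* Matrix (Fin 2) (Fin 2) (Λ ⧸ J)} (hrJ : MatCont rJ)
    (hI' : ∀ σ, rI σ = (r σ).map (fpA (𝒪 := 𝒪) I J))
    (hJ' : ∀ σ, rJ σ = (r σ).map (fpB (𝒪 := 𝒪) I J))
    (h1 : 𝒟 (ofMat rI hrI)) (h2 : 𝒟 (ofMat rJ hrJ)) : 𝒟 (ofMat r hr) := by
  have hpA := isLocalHom_fpA (𝒪 := 𝒪) I J
  have hpB := isLocalHom_fpB (𝒪 := 𝒪) I J
  refine D_fibreProduct h𝒟 hI hJ hS hP (fpF I J) (fpG I J) (fpA I J) (fpB I J) hpA hpB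
    (fp_comp_eq I J) (fp_injective I J) (fp_glue I J) hr ?_ ?_
  · exact D_of_eq h𝒟 hI hrI _ hI' h1
  · exact D_of_eq h𝒟 hJ hrJ _ hJ' h2

end Inf

section JointlyInjective

variable {A B₁ B₂ : Type} [CommRing A] [IsLocalRing A] [CommRing B₁] [IsLocalRing B₁]
  [CommRing B₂] [IsLocalRing B₂]

/-- (M1) Continuity can be tested on two jointly injective quotients (nilpotent case). -/
theorem matCont_of_jointly_injective (φ₁ : A →+* B₁) (φ₂ : A →+* B₂)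
    (hinj : ∀ a : A, φ₁ a = 0 → φ₂ a = 0 → a = 0)
    {N₁ N₂ : ℕ} (h₁ : maximalIdeal B₁ ^ N₁ = ⊥) (h₂ : maximalIdeal B₂ ^ N₂ = ⊥)
    {r : GQ →* Matrix (Fin 2) (Fin 2) A}
    (hr₁ : MatCont (mapMat φ₁ r)) (hr₂ : MatCont (mapMat φ₂ r)) : MatCont r := by
  obtain ⟨L₁, hL₁, hl₁⟩ := (matCont_iff_of_pow_eq_bot h₁).mp hr₁
  obtain ⟨L₂, hL₂, hl₂⟩ := (matCont_iff_of_pow_eq_bot h₂).mp hr₂
  refine matCont_of_eq_one ⟨L₁ ⊔ L₂, ?_, ?_⟩
  · exact IntermediateField.finiteDimensional_sup L₁ L₂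
  · intro σ hσ
    have e1 : mapMat φ₁ r σ = 1 := hl₁ σ fun x hx => hσ x ((le_sup_left : L₁ ≤ L₁ ⊔ L₂) hx)
    have e2 : mapMat φ₂ r σ = 1 := hl₂ σ fun x hx => hσ x ((le_sup_right : L₂ ≤ L₁ ⊔ L₂) hx)
    ext i j
    have := sub_eq_zero.mp (hinj (r σ i j - (1 : Matrix (Fin 2) (Fin 2) A) i j) ?_ ?_)
    · exact this
    · have := congrFun (congrFun e1 i) j
      rw [mapMat_apply, Matrix.map_apply] at this
      rw [map_sub, this]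
      by_cases hij : i = j <;> simp [hij, Matrix.one_apply]
    · have := congrFun (congrFun e2 i) j
      rw [mapMat_apply, Matrix.map_apply] at this
      rw [map_sub, this]
      by_cases hij : i = j <;> simp [hij, Matrix.one_apply]

/-- (M2) A family of matrices which is multiplicative after two jointly injective maps is
multiplicative. -/
def monoidHomOfJointlyInjective {A B₁ B₂ : Type} [CommRing A] [CommRing B₁] [CommRing B₂]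
    (φ₁ : A →+* B₁) (φ₂ : A →+* B₂)
    (hinj : ∀ a : A, φ₁ a = 0 → φ₂ a = 0 → a = 0)
    (r : GQ → Matrix (Fin 2) (Fin 2) A)
    (r₁ : GQ →* Matrix (Fin 2) (Fin 2) B₁) (r₂ : GQ →* Matrix (Fin 2) (Fin 2) B₂)
    (h₁ : ∀ σ, (r σ).map φ₁ = r₁ σ) (h₂ : ∀ σ, (r σ).map φ₂ = r₂ σ) :
    GQ →* Matrix (Fin 2) (Fin 2) A where
  toFun := r
  map_one' := by
    ext i j
    refine sub_eq_zero.mp (hinj _ ?_ ?_)
    · have := congrFun (congrFun (h₁ 1) i) j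
      rw [Matrix.map_apply, map_one] at this
      rw [map_sub, this]
      by_cases hij : i = j <;> simp [hij, Matrix.one_apply]
    · have := congrFun (congrFun (h₂ 1) i) j
      rw [Matrix.map_apply, map_one] at this
      rw [map_sub, this]
      by_cases hij : i = j <;> simp [hij, Matrix.one_apply]
  map_mul' σ τ := by
    ext i j
    refine sub_eq_zero.mp (hinj _ ?_ ?_)
    · have := congrFun (congrFun (h₁ (σ * τ)) i) j
      rw [Matrix.map_apply, map_mul, ← h₁ σ, ← h₁ τ, ← Matrix.map_mul] at this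
      rw [map_sub, this, Matrix.map_apply, sub_self]
    · have := congrFun (congrFun (h₂ (σ * τ)) i) j
      rw [Matrix.map_apply, map_mul, ← h₂ σ, ← h₂ τ, ← Matrix.map_mul] at this
      rw [map_sub, this, Matrix.map_apply, sub_self]

@[simp] theorem monoidHomOfJointlyInjective_apply {A B₁ B₂ : Type} [CommRing A] [CommRing B₁]
    [CommRing B₂] (φ₁ : A →+* B₁) (φ₂ : A →+* B₂)
    (hinj : ∀ a : A, φ₁ a = 0 → φ₂ a = 0 → a = 0)
    (r : GQ → Matrix (Fin 2) (Fin 2) A)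
    (r₁ : GQ →* Matrix (Fin 2) (Fin 2) B₁) (r₂ : GQ →* Matrix (Fin 2) (Fin 2) B₂)
    (h₁ : ∀ σ, (r σ).map φ₁ = r₁ σ) (h₂ : ∀ σ, (r σ).map φ₂ = r₂ σ) (σ : GQ) :
    monoidHomOfJointlyInjective φ₁ φ₂ hinj r r₁ r₂ h₁ h₂ σ = r σ := rfl

end JointlyInjective

end Fermat.Agent.S53_helper35

end
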