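import Mathlib
import Fermat.Prelude.Def_GaloisRep_DeformationCondition
import Fermat.Agent.S53_helper35.DefCond

set_option autoImplicit false
set_option linter.unusedSectionVars false
set_option linter.style.haveILetI false

noncomputable section

namespace Fermat.Agent.S53_helper35

open GaloisRep IsLocalRing

variable {𝒪 : Type} [CommRing 𝒪] [IsLocalRing 𝒪]
variable {𝒟 : ∀ ⦃A : Type⦄ [CommRing A] [IsLocalRing A] [Algebra 𝒪 A], GaloisRepAdic A → Prop}

section Quotients

variable {A : Type} [CommRing A] [IsLocalRing A] [Algebra 𝒪 A]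

/-- `A ⧸ 𝔪 ^ n` is local for `n ≥ 1`. -/
theorem isLocalRing_quotient_maxPow (n : ℕ) (hn : 1 ≤ n) :
    IsLocalRing (A ⧸ maximalIdeal A ^ n) := by
  have hne : maximalIdeal A ^ n ≠ ⊤ := by
    intro h
    have h1 : maximalIdeal A ^ n ≤ maximalIdeal A := Ideal.pow_le_self (by omega)
    rw [h] at h1
    exact (Ideal.IsMaximal.ne_top inferInstance) (top_le_iff.mp h1)
  haveI : Nontrivial (A ⧸ maximalIdeal A ^ n) := Ideal.Quotient.nontrivial_iff.mpr hne
  exact IsLocalRing.of_surjective' (Ideal.Quotient.mk _) Ideal.Quotient.mk_surjective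

/-- Quotients of a local `𝒪`-algebra (with local structure map and `𝒪 → k_A` onto) by an ideal
are again of this kind. -/
theorem isLocalHom_algebraMap_quot (hloc : IsLocalHom (algebraMap 𝒪 A)) (I : Ideal A)
    [IsLocalRing (A ⧸ I)] : IsLocalHom (algebraMap 𝒪 (A ⧸ I)) := by
  haveI := hloc
  haveI : IsLocalHom (Ideal.Quotient.mk I) :=
    IsLocalHom.of_surjective _ Ideal.Quotient.mk_surjective
  have : algebraMap 𝒪 (A ⧸ I) = (Ideal.Quotient.mk I).comp (algebraMap 𝒪 A) := rfl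
  rw [this]
  exact RingHom.isLocalHom_comp _ _

theorem residue_surjective_quot
    (hres : Function.Surjective (IsLocalRing.residue A ∘ algebraMap 𝒪 A)) (I : Ideal A)
    [IsLocalRing (A ⧸ I)] :
    Function.Surjective (IsLocalRing.residue (A ⧸ I) ∘ algebraMap 𝒪 (A ⧸ I)) := by
  haveI : IsLocalHom (Ideal.Quotient.mk I) :=
    IsLocalHom.of_surjective _ Ideal.Quotient.mk_surjective
  intro y
  obtain ⟨y, rfl⟩ := IsLocalRing.residue_surjective y
  obtain ⟨y, rfl⟩ := Ideal.Quotient.mk_surjective y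
  obtain ⟨a, ha⟩ := hres (residue A y)
  refine ⟨a, ?_⟩
  rw [Function.comp_apply] at ha ⊢
  rw [← sub_eq_zero, ← map_sub, residue_eq_zero_iff] at ha ⊢
  have : algebraMap 𝒪 (A ⧸ I) a - Ideal.Quotient.mk I y =
      Ideal.Quotient.mk I (algebraMap 𝒪 A a - y) := by
    rw [map_sub]; rfl
  rw [this]
  exact map_nonunit (Ideal.Quotient.mk I) _ ha

/-- `A ⧸ 𝔪 ^ n` is a test algebra when `A` is noetherian. -/
theorem isTestAlgebra_quotient_maxPow [IsNoetherianRing A]
    (hloc : IsLocalHom (algebraMap 𝒪 A))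
    (hres : Function.Surjective (IsLocalRing.residue A ∘ algebraMap 𝒪 A)) (n : ℕ)
    [IsLocalRing (A ⧸ maximalIdeal A ^ n)] :
    IsArtinianTestAlgebra 𝒪 (A ⧸ maximalIdeal A ^ n) := by
  refine ⟨isLocalHom_algebraMap_quot hloc _, residue_surjective_quot hres _, ?_⟩
  haveI : IsLocalHom (Ideal.Quotient.mk (maximalIdeal A ^ n)) :=
    IsLocalHom.of_surjective _ Ideal.Quotient.mk_surjective
  rw [isArtinianRing_iff_isNilpotent_maximalIdeal]
  refine ⟨n, ?_⟩
  rw [Ideal.zero_eq_bot, eq_bot_iff]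
  have h1 : maximalIdeal (A ⧸ maximalIdeal A ^ n) ≤
      (maximalIdeal A).map (Ideal.Quotient.mk (maximalIdeal A ^ n)) := by
    intro x hx
    obtain ⟨x, rfl⟩ := Ideal.Quotient.mk_surjective x
    refine Ideal.mem_map_of_mem _ ?_
    rw [mem_maximalIdeal, mem_nonunits_iff] at hx ⊢
    exact fun h => hx (h.map _)
  refine (Ideal.pow_right_mono h1 n).trans ?_
  rw [← Ideal.map_pow, Ideal.map_le_iff_le_comap]
  intro x hx
  rw [Ideal.mem_comap, Ideal.Quotient.eq_zero_iff_mem.mpr hx]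
  exact Submodule.zero_mem _

end Quotients

section Complete

variable {A : Type} [CommRing A] [IsLocalRing A] [IsNoetherianRing A]
  [IsAdicComplete (maximalIdeal A) A] [Algebra 𝒪 A]

/-- Over complete noetherian local rings the condition only depends on the equivalence class. -/
theorem D_congr_complete (h𝒟 : IsDeformationCondition 𝒪 𝒟)
    (hloc : IsLocalHom (algebraMap 𝒪 A))
    (hres : Function.Surjective (IsLocalRing.residue A ∘ algebraMap 𝒪 A))
    {ρ ρ' : GaloisRepAdic A} (h : ρ.IsEquiv ρ') : 𝒟 ρ ↔ 𝒟 ρ' := by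
  have key : ∀ {ρ ρ' : GaloisRepAdic A}, ρ.IsEquiv ρ' → 𝒟 ρ → 𝒟 ρ' := by
    intro ρ ρ' h hD
    obtain ⟨e⟩ := h
    refine (h𝒟.iff_forall_surjective hloc hres ρ').mpr ?_
    intro B _ _ _ hB q hq hsurj
    exact h𝒟.of_isEquiv hB ⟨e.baseChangeAlong _ hq⟩
      ((h𝒟.iff_forall_surjective hloc hres ρ).mp hD hB q hq hsurj)
  exact ⟨key h, key (isEquiv_symm h)⟩

/-- (D5) The condition over a complete noetherian local ring, tested on Artinian quotients, in
matrix form. -/
theorem D_complete_iff (h𝒟 : IsDeformationCondition 𝒪 𝒟)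
    (hloc : IsLocalHom (algebraMap 𝒪 A))
    (hres : Function.Surjective (IsLocalRing.residue A ∘ algebraMap 𝒪 A))
    {r : GQ →* Matrix (Fin 2) (Fin 2) A} (hr : MatCont r) :
    𝒟 (ofMat r hr) ↔
      ∀ ⦃B : Type⦄ [CommRing B] [IsLocalRing B] [Algebra 𝒪 B], IsArtinianTestAlgebra 𝒪 B →
        ∀ (q : A →ₐ[𝒪] B), Function.Surjective q →
          ∀ hr' : MatCont (mapMat (q : A →+* B) r), 𝒟 (ofMat (mapMat (q : A →+* B) r) hr') := by
  rw [h𝒟.iff_forall_surjective hloc hres (ofMat r hr)]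
  constructor
  · intro h B _ _ _ hB q hsurj hr'
    have hq : IsLocalHom (q : A →+* B) := IsLocalHom.of_surjective _ hsurj
    exact h𝒟.of_isEquiv hB (baseChangeAlong_ofMat_isEquiv _ hq r hr) (h hB q hq hsurj)
  · intro h B _ _ _ hB q hq hsurj
    exact h𝒟.of_isEquiv hB (isEquiv_symm (baseChangeAlong_ofMat_isEquiv _ hq r hr))
      (h hB q hsurj (matCont_mapMat _ hq hr))

/-- (D5, levelwise) The condition over a complete noetherian local ring, tested on the quotients
`A ⧸ 𝔪 ^ n`. -/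
theorem D_complete_iff_levels (h𝒟 : IsDeformationCondition 𝒪 𝒟)
    (hloc : IsLocalHom (algebraMap 𝒪 A))
    (hres : Function.Surjective (IsLocalRing.residue A ∘ algebraMap 𝒪 A))
    {r : GQ →* Matrix (Fin 2) (Fin 2) A} (hr : MatCont r) :
    𝒟 (ofMat r hr) ↔
      ∀ n : ℕ, 1 ≤ n → ∀ [IsLocalRing (A ⧸ maximalIdeal A ^ n)]
        (hr' : MatCont (mapMat (Ideal.Quotient.mk (maximalIdeal A ^ n)) r)),
        𝒟 (ofMat (mapMat (Ideal.Quotient.mk (maximalIdeal A ^ n)) r) hr') := by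
  rw [D_complete_iff h𝒟 hloc hres hr]
  constructor
  · intro h n _ _ hr'
    exact h (isTestAlgebra_quotient_maxPow hloc hres n)
      (Ideal.Quotient.mkₐ 𝒪 (maximalIdeal A ^ n)) (Ideal.Quotient.mkₐ_surjective _ _) hr'
  · intro h B _ _ _ hB q hsurj hr'
    obtain ⟨n, hn⟩ := Fermat.Agent.S53_helper84.exists_maximalIdeal_pow_eq_bot hB
    have hq : IsLocalHom (q : A →+* B) := IsLocalHom.of_surjective _ hsurj
    have hN : maximalIdeal B ^ (n + 1) = ⊥ := by
      rw [pow_succ, hn, Ideal.bot_mul]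
    haveI := isLocalRing_quotient_maxPow (A := A) (n + 1) (by omega)
    have hker : ∀ a ∈ maximalIdeal A ^ (n + 1), q a = 0 := by
      intro a ha
      have h1 : (q : A →+* B) a ∈ (maximalIdeal A ^ (n + 1)).map (q : A →+* B) :=
        Ideal.mem_map_of_mem _ ha
      have h2 := map_maximalIdeal_pow_le (q : A →+* B) hq (n + 1) h1
      rw [hN] at h2
      exact h2
    let qbar : (A ⧸ maximalIdeal A ^ (n + 1)) →ₐ[𝒪] B :=
      Ideal.Quotient.liftₐ (maximalIdeal A ^ (n + 1)) q hker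
    have hqbar_surj : Function.Surjective qbar := by
      intro b
      obtain ⟨a, rfl⟩ := hsurj b
      exact ⟨Ideal.Quotient.mk _ a, rfl⟩
    have hqbar : IsLocalHom (qbar : (A ⧸ maximalIdeal A ^ (n + 1)) →+* B) :=
      IsLocalHom.of_surjective _ hqbar_surj
    have hmk : IsLocalHom (Ideal.Quotient.mk (maximalIdeal A ^ (n + 1))) :=
      IsLocalHom.of_surjective _ Ideal.Quotient.mk_surjective
    have hlev := h (n + 1) (by omega) (matCont_mapMat _ hmk hr)
    refine D_of_map_eq h𝒟 (isTestAlgebra_quotient_maxPow hloc hres (n + 1)) hB qbar hqbar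
      (matCont_mapMat _ hmk hr) hr' (fun σ => ?_) hlev
    ext i j
    rfl

/-- The levels of a representation of type `𝒟` over a complete noetherian local ring, in matrix
form. -/
theorem D_level_of_isEquiv (h𝒟 : IsDeformationCondition 𝒪 𝒟)
    (hloc : IsLocalHom (algebraMap 𝒪 A))
    (hres : Function.Surjective (IsLocalRing.residue A ∘ algebraMap 𝒪 A))
    {ρ : GaloisRepAdic A} (hD : 𝒟 ρ)
    {r : GQ →* Matrix (Fin 2) (Fin 2) A} (hr : MatCont r) (h : ρ.IsEquiv (ofMat r hr))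
    (n : ℕ) (hn : 1 ≤ n) [IsLocalRing (A ⧸ maximalIdeal A ^ n)]
    (hr' : MatCont (mapMat (Ideal.Quotient.mk (maximalIdeal A ^ n)) r)) :
    𝒟 (ofMat (mapMat (Ideal.Quotient.mk (maximalIdeal A ^ n)) r) hr') :=
  (D_complete_iff_levels h𝒟 hloc hres hr).mp ((D_congr_complete h𝒟 hloc hres h).mp hD) n hn hr'

end Complete

section Residue

/-- The residue field of `𝒪` is a test algebra. -/
theorem isTestAlgebra_residueField :
    IsArtinianTestAlgebra 𝒪 (ResidueField 𝒪) := by
  refine ⟨?_, ?_, inferInstance⟩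
  · have : algebraMap 𝒪 (ResidueField 𝒪) = residue 𝒪 := rfl
    rw [this]
    infer_instance
  · intro y
    obtain ⟨x, rfl⟩ := IsLocalRing.residue_surjective y
    obtain ⟨a, rfl⟩ := IsLocalRing.residue_surjective x
    exact ⟨a, rfl⟩

/-- (D6) The hypothesis `hbar` of S53 in matrix form. -/
theorem D_residual (h𝒟 : IsDeformationCondition 𝒪 𝒟)
    {ρbar : ResidualGaloisRep (ResidueField 𝒪)}
    (hbar : 𝒟 (GaloisRepAdic.ofResidualGaloisRep ρbar))
    (b : Module.Basis (Fin 2) (ResidueField 𝒪) ρbar.V)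
    (hr : MatCont (toMatRes ρbar b)) : 𝒟 (ofMat (toMatRes ρbar b) hr) := by
  have e := equivOfMatResToMatRes ρbar b
  refine h𝒟.of_isEquiv isTestAlgebra_residueField ?_ hbar
  exact ⟨{ toLinearEquiv := e.toLinearEquiv, map_apply := e.map_apply }⟩

/-- (D6') Same for an arbitrary matrix form of `ρbar`. -/
theorem D_residual_of_isEquiv (h𝒟 : IsDeformationCondition 𝒪 𝒟)
    {ρbar : ResidualGaloisRep (ResidueField 𝒪)}
    (hbar : 𝒟 (GaloisRepAdic.ofResidualGaloisRep ρbar))
    {rbar : GQ →* Matrix (Fin 2) (Fin 2) (ResidueField 𝒪)} (hrbar : ResCont rbar)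
    (h : ρbar.IsEquiv (ofMatRes rbar hrbar)) (hr : MatCont rbar) : 𝒟 (ofMat rbar hr) := by
  obtain ⟨e⟩ := h
  refine h𝒟.of_isEquiv isTestAlgebra_residueField ?_ hbar
  exact ⟨{ toLinearEquiv := e.toLinearEquiv, map_apply := e.map_apply }⟩

end Residue

end Fermat.Agent.S53_helper35

end
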